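import Fermat.Agent.H46.VariableChangePoint
import Fermat.Agent.H4.Short
import Fermat.Prelude.Def_FLTPrelim_GaloisRep

/-!
# Transfer to short Weierstrass form

For a Weierstrass curve `W` over a field `F` and `r : F`, the substitution
`X = 4 x - r`, `Y = 4 (2 y + a₁ x + a₃)` maps `W` to the short curve
`Y² = X³ + c₂ X² + c₄ X + c₆` (`shortOf W r`).  Over an extension `L` with `2 ≠ 0` this is an
injective (indeed bijective) additive map on points, commuting with the Galois action.
-/

set_option autoImplicit false

namespace Fermat.Agent.H46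

open WeierstrassCurve WeierstrassCurve.Affine

section cast

variable {K : Type*} [Field K] [DecidableEq K]

/-- Transport of points along an equality of curves. -/
def pointCongr {W₁ W₂ : WeierstrassCurve.Affine K} (h : W₁ = W₂) : W₁.Point ≃+ W₂.Point :=
  h ▸ AddEquiv.refl _

@[simp] lemma pointCongr_zero {W₁ W₂ : WeierstrassCurve.Affine K} (h : W₁ = W₂) :
    pointCongr h (0 : W₁.Point) = 0 := by
  subst h; rfl

lemma pointCongr_some {W₁ W₂ : WeierstrassCurve.Affine K} (h : W₁ = W₂) {x y : K}
    (hxy : W₁.Nonsingular x y) :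
    pointCongr h (Point.some x y hxy) = Point.some x y (h ▸ hxy) := by
  subst h; rfl

omit [DecidableEq K] in
lemma point_some_congr {W : WeierstrassCurve.Affine K} {x y x' y' : K}
    (h : W.Nonsingular x y) (h' : W.Nonsingular x' y') (hx : x = x') (hy : y = y') :
    Point.some x y h = Point.some x' y' h' := by
  subst hx; subst hy; rfl

end cast

variable {F : Type*} [Field F]

/-- The short Weierstrass curve obtained from `W` via `X = 4x - r`, `Y = 4(2y + a₁x + a₃)`. -/
def shortOf (W : WeierstrassCurve.Affine F) (r : F) : WeierstrassCurve.Affine F :=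
  ⟨0, W.b₂ + 3 * r, 0, 8 * W.b₄ + 2 * W.b₂ * r + 3 * r ^ 2,
    16 * W.b₆ + 8 * W.b₄ * r + W.b₂ * r ^ 2 + r ^ 3⟩

variable {L : Type*} [Field L] [Algebra F L]

lemma shortOf_baseChange_isShort (W : WeierstrassCurve.Affine F) (r : F) :
    Fermat.Agent.H4.IsShort ((shortOf W r).baseChange L) :=
  ⟨by simp [shortOf], by simp [shortOf]⟩

/-- The change of variables (over `L`) taking `shortOf W r` back to `W`. -/
def shortVC (W : WeierstrassCurve.Affine F) (r : F) (h2 : (2 : L) ≠ 0) : VariableChange L :=
  ⟨Units.mk0 2 h2, -algebraMap F L r, algebraMap F L W.a₁, 4 * algebraMap F L W.a₃⟩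

lemma shortVC_smul (W : WeierstrassCurve.Affine F) (r : F) (h2 : (2 : L) ≠ 0) :
    shortVC W r h2 • ((shortOf W r).baseChange L) = W.baseChange L := by
  ext
  · simp only [variableChange_a₁, shortVC, shortOf, WeierstrassCurve.Affine.baseChange_a₁,
      Units.val_inv_eq_inv_val, Units.val_mk0, map_zero]
    field_simp
    ring
  · simp only [variableChange_a₂, shortVC, shortOf, WeierstrassCurve.Affine.baseChange_a₁,
      WeierstrassCurve.Affine.baseChange_a₂,
      Units.val_inv_eq_inv_val, Units.val_mk0, map_zero, WeierstrassCurve.b₂, map_add, map_mul,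
      map_pow, map_ofNat]
    field_simp
    ring
  · simp only [variableChange_a₃, shortVC, shortOf, WeierstrassCurve.Affine.baseChange_a₁,
      WeierstrassCurve.Affine.baseChange_a₃,
      Units.val_inv_eq_inv_val, Units.val_mk0, map_zero]
    field_simp
    ring
  · simp only [variableChange_a₄, shortVC, shortOf, WeierstrassCurve.Affine.baseChange_a₁,
      WeierstrassCurve.Affine.baseChange_a₂, WeierstrassCurve.Affine.baseChange_a₃,
      WeierstrassCurve.Affine.baseChange_a₄,
      Units.val_inv_eq_inv_val, Units.val_mk0, map_zero, WeierstrassCurve.b₂, WeierstrassCurve.b₄,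
      map_add, map_mul, map_pow, map_ofNat]
    field_simp
    ring
  · simp only [variableChange_a₆, shortVC, shortOf, WeierstrassCurve.Affine.baseChange_a₁,
      WeierstrassCurve.Affine.baseChange_a₂, WeierstrassCurve.Affine.baseChange_a₃,
      WeierstrassCurve.Affine.baseChange_a₄, WeierstrassCurve.Affine.baseChange_a₆,
      Units.val_inv_eq_inv_val, Units.val_mk0, map_zero, WeierstrassCurve.b₂, WeierstrassCurve.b₄,
      WeierstrassCurve.b₆, map_add, map_mul, map_pow, map_ofNat]
    field_simp
    ring

variable [DecidableEq L]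

/-- The transfer map on points, as an additive equivalence. -/
noncomputable def toShortEquiv (W : WeierstrassCurve.Affine F) (r : F) (h2 : (2 : L) ≠ 0) :
    (W.baseChange L).Point ≃+ ((shortOf W r).baseChange L).Point :=
  (pointCongr (shortVC_smul (L := L) W r h2).symm).trans
    (vcPointEquiv (shortVC W r h2) ((shortOf W r).baseChange L))

/-- The transfer map on points. -/
noncomputable def toShort (W : WeierstrassCurve.Affine F) (r : F) (h2 : (2 : L) ≠ 0) :
    (W.baseChange L).Point →+ ((shortOf W r).baseChange L).Point :=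
  (toShortEquiv W r h2).toAddMonoidHom

lemma toShort_apply (W : WeierstrassCurve.Affine F) (r : F) (h2 : (2 : L) ≠ 0)
    (P : (W.baseChange L).Point) : toShort W r h2 P = toShortEquiv W r h2 P := rfl

@[simp] lemma toShort_zero (W : WeierstrassCurve.Affine F) (r : F) (h2 : (2 : L) ≠ 0) :
    toShort (L := L) W r h2 0 = 0 := map_zero _

omit [DecidableEq L] in
lemma shortVC_vcX (W : WeierstrassCurve.Affine F) (r : F) (h2 : (2 : L) ≠ 0) (x : L) :
    vcX (shortVC W r h2) x = 4 * x - algebraMap F L r := by
  simp only [vcX, shortVC, Units.val_mk0]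
  ring

omit [DecidableEq L] in
lemma shortVC_vcY (W : WeierstrassCurve.Affine F) (r : F) (h2 : (2 : L) ≠ 0) (x y : L) :
    vcY (shortVC W r h2) x y
      = 4 * (2 * y + algebraMap F L W.a₁ * x + algebraMap F L W.a₃) := by
  simp only [vcY, shortVC, Units.val_mk0]
  ring

theorem toShort_some (W : WeierstrassCurve.Affine F) (r : F) (h2 : (2 : L) ≠ 0) {x y : L}
    (h : (W.baseChange L).Nonsingular x y) :
    ∃ h' : ((shortOf W r).baseChange L).Nonsingular (4 * x - algebraMap F L r)
        (4 * (2 * y + algebraMap F L W.a₁ * x + algebraMap F L W.a₃)),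
      toShort W r h2 (Point.some x y h) =
        Point.some (4 * x - algebraMap F L r)
          (4 * (2 * y + algebraMap F L W.a₁ * x + algebraMap F L W.a₃)) h' := by
  have key : toShort W r h2 (Point.some x y h) =
      Point.some (vcX (shortVC W r h2) x) (vcY (shortVC W r h2) x y)
        ((vc_nonsingular (shortVC W r h2) ((shortOf W r).baseChange L) x y).mp
          ((shortVC_smul (L := L) W r h2).symm ▸ h)) := by
    rw [toShort_apply, toShortEquiv, AddEquiv.trans_apply, pointCongr_some, vcPointEquiv_some]
  have hns : ((shortOf W r).baseChange L).Nonsingular (4 * x - algebraMap F L r)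
      (4 * (2 * y + algebraMap F L W.a₁ * x + algebraMap F L W.a₃)) := by
    have := (vc_nonsingular (shortVC W r h2) ((shortOf W r).baseChange L) x y).mp
      ((shortVC_smul (L := L) W r h2).symm ▸ h)
    rwa [shortVC_vcX, shortVC_vcY] at this
  refine ⟨hns, ?_⟩
  rw [key]
  exact point_some_congr _ _ (shortVC_vcX W r h2 x) (shortVC_vcY W r h2 x y)

theorem toShort_injective (W : WeierstrassCurve.Affine F) (r : F) (h2 : (2 : L) ≠ 0) :
    Function.Injective (toShort (L := L) W r h2) :=
  (toShortEquiv W r h2).injective

theorem toShort_surjective (W : WeierstrassCurve.Affine F) (r : F) (h2 : (2 : L) ≠ 0) :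
    Function.Surjective (toShort (L := L) W r h2) :=
  (toShortEquiv W r h2).surjective

/-- The prelude Galois action on an affine point, with the plain coercion of `σ`. -/
lemma algEquiv_smul_some' (W : WeierstrassCurve.Affine F) (σ : L ≃ₐ[F] L) {x y : L}
    (h : (W.baseChange L).Nonsingular x y) (h' : (W.baseChange L).Nonsingular (σ x) (σ y)) :
    σ • Point.some x y h = Point.some (σ x) (σ y) h' := rfl

omit [DecidableEq L] in
lemma nonsingular_algEquiv (W : WeierstrassCurve.Affine F) (σ : L ≃ₐ[F] L) {x y : L}
    (h : (W.baseChange L).Nonsingular x y) : (W.baseChange L).Nonsingular (σ x) (σ y) :=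
  (WeierstrassCurve.Affine.baseChange_nonsingular W σ.toAlgHom.injective ..).mpr h

theorem toShort_smul (W : WeierstrassCurve.Affine F) (r : F) (h2 : (2 : L) ≠ 0)
    (σ : L ≃ₐ[F] L) (P : (W.baseChange L).Point) :
    toShort W r h2 (σ • P) = σ • toShort W r h2 P := by
  rcases P with _ | ⟨x, y, h⟩
  · change toShort W r h2 0 = σ • toShort W r h2 0
    rw [toShort_zero]
    rfl
  · have hσxy := nonsingular_algEquiv W σ h
    obtain ⟨h₁, e₁⟩ := toShort_some W r h2 h
    obtain ⟨h₂, e₂⟩ := toShort_some W r h2 hσxy
    rw [algEquiv_smul_some' W σ h hσxy, e₂, e₁,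
      algEquiv_smul_some' (shortOf W r) σ h₁ (nonsingular_algEquiv (shortOf W r) σ h₁)]
    apply point_some_congr
    · simp only [map_sub, map_mul, map_ofNat, AlgEquiv.commutes]
    · simp only [map_add, map_mul, map_ofNat, AlgEquiv.commutes]

end Fermat.Agent.H46
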