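import Mathlib.AlgebraicGeometry.EllipticCurve.Affine.Point
import Mathlib.AlgebraicGeometry.EllipticCurve.VariableChange
import Mathlib.Tactic

/-!
# Points of a Weierstrass curve under an admissible change of variables

For a field `K`, a Weierstrass curve `W` over `K` and `C : VariableChange K`, the map
`(X, Y) ↦ (u² X + r, u³ Y + u² s X + t)` is an isomorphism of groups from the points of `C • W`
onto the points of `W`.
-/

namespace Fermat.Agent.H46

open WeierstrassCurve WeierstrassCurve.Affine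

variable {K : Type*} [Field K]

/-- The `x`-coordinate of the image of `(X, Y)` under a change of variables. -/
def vcX (C : VariableChange K) (X : K) : K := (C.u : K) ^ 2 * X + C.r

/-- The `y`-coordinate of the image of `(X, Y)` under a change of variables. -/
def vcY (C : VariableChange K) (X Y : K) : K := (C.u : K) ^ 3 * Y + (C.u : K) ^ 2 * C.s * X + C.t

lemma vcX_injective (C : VariableChange K) : Function.Injective (vcX C) := by
  intro a b h
  have hu : (C.u : K) ^ 2 ≠ 0 := pow_ne_zero _ C.u.ne_zero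
  simp only [vcX, add_left_inj] at h
  exact mul_left_cancel₀ hu h

lemma vcY_injective (C : VariableChange K) (X : K) : Function.Injective (vcY C X) := by
  intro a b h
  have hu : (C.u : K) ^ 3 ≠ 0 := pow_ne_zero _ C.u.ne_zero
  simp only [vcY, add_left_inj] at h
  exact mul_left_cancel₀ hu h

lemma vc_equation_poly (C : VariableChange K) (W : WeierstrassCurve K) (X Y : K) :
    (vcY C X Y) ^ 2 + W.a₁ * (vcX C X) * (vcY C X Y) + W.a₃ * (vcY C X Y)
        - ((vcX C X) ^ 3 + W.a₂ * (vcX C X) ^ 2 + W.a₄ * (vcX C X) + W.a₆)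
      = (C.u : K) ^ 6 * (Y ^ 2 + (C • W).a₁ * X * Y + (C • W).a₃ * Y
        - (X ^ 3 + (C • W).a₂ * X ^ 2 + (C • W).a₄ * X + (C • W).a₆)) := by
  have hu : (C.u : K) ≠ 0 := C.u.ne_zero
  simp only [variableChange_a₁, variableChange_a₂, variableChange_a₃, variableChange_a₄,
    variableChange_a₆, vcX, vcY, Units.val_inv_eq_inv_val]
  field_simp
  ring

lemma vc_equation (C : VariableChange K) (W : WeierstrassCurve K) (X Y : K) :
    (C • W).toAffine.Equation X Y ↔ W.toAffine.Equation (vcX C X) (vcY C X Y) := by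
  have hu : (C.u : K) ^ 6 ≠ 0 := pow_ne_zero _ C.u.ne_zero
  rw [equation_iff', equation_iff', vc_equation_poly]
  constructor
  · intro h; rw [h, mul_zero]
  · intro h; exact (mul_eq_zero.mp h).resolve_left hu

lemma vc_polyY (C : VariableChange K) (W : WeierstrassCurve K) (X Y : K) :
    2 * (vcY C X Y) + W.a₁ * (vcX C X) + W.a₃
      = (C.u : K) ^ 3 * (2 * Y + (C • W).a₁ * X + (C • W).a₃) := by
  have hu : (C.u : K) ≠ 0 := C.u.ne_zero
  simp only [variableChange_a₁, variableChange_a₃, vcX, vcY, Units.val_inv_eq_inv_val]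
  field_simp
  ring

lemma vc_polyX (C : VariableChange K) (W : WeierstrassCurve K) (X Y : K) :
    (C.u : K) ^ 4 * ((C • W).a₁ * Y - (3 * X ^ 2 + 2 * (C • W).a₂ * X + (C • W).a₄))
      = (W.a₁ * (vcY C X Y) - (3 * (vcX C X) ^ 2 + 2 * W.a₂ * (vcX C X) + W.a₄))
        + C.s * (2 * (vcY C X Y) + W.a₁ * (vcX C X) + W.a₃) := by
  have hu : (C.u : K) ≠ 0 := C.u.ne_zero
  simp only [variableChange_a₁, variableChange_a₂, variableChange_a₄, vcX, vcY,
    Units.val_inv_eq_inv_val]
  field_simp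
  ring

lemma vc_nonsingular (C : VariableChange K) (W : WeierstrassCurve K) (X Y : K) :
    (C • W).toAffine.Nonsingular X Y ↔ W.toAffine.Nonsingular (vcX C X) (vcY C X Y) := by
  have hu : (C.u : K) ≠ 0 := C.u.ne_zero
  have hu3 : (C.u : K) ^ 3 ≠ 0 := pow_ne_zero _ hu
  have hu4 : (C.u : K) ^ 4 ≠ 0 := pow_ne_zero _ hu
  rw [nonsingular_iff', nonsingular_iff', vc_equation]
  refine and_congr_right fun _ => ?_
  have hY := vc_polyY C W X Y
  have hX := vc_polyX C W X Y
  constructor
  · rintro (h | h)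
    · by_contra hcon
      push Not at hcon
      apply h
      have : (C.u : K) ^ 4 * ((C • W).a₁ * Y - (3 * X ^ 2 + 2 * (C • W).a₂ * X + (C • W).a₄)) = 0 := by
        rw [hX, hcon.1, hcon.2]; ring
      exact (mul_eq_zero.mp this).resolve_left hu4
    · right
      rw [hY]
      exact mul_ne_zero hu3 h
  · rintro (h | h)
    · by_contra hcon
      push Not at hcon
      apply h
      have h2 : 2 * (vcY C X Y) + W.a₁ * (vcX C X) + W.a₃ = 0 := by rw [hY, hcon.2, mul_zero]
      have : (W.a₁ * (vcY C X Y) - (3 * (vcX C X) ^ 2 + 2 * W.a₂ * (vcX C X) + W.a₄)) = 0 := by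
        have := hX
        rw [hcon.1, h2] at this
        simpa using this.symm
      exact this
    · right
      intro h0
      apply h
      rw [hY, h0, mul_zero]

lemma vc_negY (C : VariableChange K) (W : WeierstrassCurve K) (X Y : K) :
    W.toAffine.negY (vcX C X) (vcY C X Y) = vcY C X ((C • W).toAffine.negY X Y) := by
  have hu : (C.u : K) ≠ 0 := C.u.ne_zero
  simp only [negY, variableChange_a₁, variableChange_a₃, vcX, vcY, Units.val_inv_eq_inv_val]
  field_simp
  ring


section slope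

variable [DecidableEq K]

lemma vc_slope (C : VariableChange K) (W : WeierstrassCurve K) {X₁ X₂ Y₁ Y₂ : K}
    (h₁ : (C • W).toAffine.Equation X₁ Y₁) (h₂ : (C • W).toAffine.Equation X₂ Y₂)
    (hxy : ¬(X₁ = X₂ ∧ Y₁ = (C • W).toAffine.negY X₂ Y₂)) :
    W.toAffine.slope (vcX C X₁) (vcX C X₂) (vcY C X₁ Y₁) (vcY C X₂ Y₂)
      = (C.u : K) * (C • W).toAffine.slope X₁ X₂ Y₁ Y₂ + C.s := by
  have hu : (C.u : K) ≠ 0 := C.u.ne_zero
  by_cases hx : X₁ = X₂
  · have hy : Y₁ ≠ (C • W).toAffine.negY X₂ Y₂ := fun h => hxy ⟨hx, h⟩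
    obtain rfl : Y₁ = Y₂ := Y_eq_of_Y_ne h₁ h₂ hx hy
    subst hx
    have hy' : vcY C X₁ Y₁ ≠ W.toAffine.negY (vcX C X₁) (vcY C X₁ Y₁) := by
      rw [vc_negY]
      exact fun h => hy (vcY_injective C X₁ h)
    rw [slope_of_Y_ne rfl hy', slope_of_Y_ne rfl hy]
    have hden : Y₁ - (C • W).toAffine.negY X₁ Y₁ ≠ 0 := sub_ne_zero.mpr hy
    have hden' : vcY C X₁ Y₁ - W.toAffine.negY (vcX C X₁) (vcY C X₁ Y₁) ≠ 0 := sub_ne_zero.mpr hy'
    have e1 : vcY C X₁ Y₁ - W.toAffine.negY (vcX C X₁) (vcY C X₁ Y₁)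
        = (C.u : K) ^ 3 * (Y₁ - (C • W).toAffine.negY X₁ Y₁) := by
      have := vc_polyY C W X₁ Y₁
      simp only [negY] at this ⊢
      linear_combination this
    have e2 : 3 * (vcX C X₁) ^ 2 + 2 * W.a₂ * (vcX C X₁) + W.a₄ - W.a₁ * (vcY C X₁ Y₁)
        = (C.u : K) ^ 4 * (3 * X₁ ^ 2 + 2 * (C • W).a₂ * X₁ + (C • W).a₄ - (C • W).a₁ * Y₁)
          + C.s * ((C.u : K) ^ 3 * (Y₁ - (C • W).toAffine.negY X₁ Y₁)) := by
      have hX := vc_polyX C W X₁ Y₁
      have hY := vc_polyY C W X₁ Y₁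
      simp only [negY] at hY ⊢
      linear_combination hX + C.s * hY
    rw [e2, e1]
    field_simp
  · have hx' : vcX C X₁ ≠ vcX C X₂ := fun h => hx (vcX_injective C h)
    rw [slope_of_X_ne hx', slope_of_X_ne hx]
    have hd : X₁ - X₂ ≠ 0 := sub_ne_zero.mpr hx
    have hd' : vcX C X₁ - vcX C X₂ ≠ 0 := sub_ne_zero.mpr hx'
    have e1 : vcX C X₁ - vcX C X₂ = (C.u : K) ^ 2 * (X₁ - X₂) := by simp only [vcX]; ring
    have e2 : vcY C X₁ Y₁ - vcY C X₂ Y₂
        = (C.u : K) ^ 3 * (Y₁ - Y₂) + (C.u : K) ^ 2 * C.s * (X₁ - X₂) := by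
      simp only [vcY]; ring
    rw [e2, e1]
    field_simp

omit [DecidableEq K] in
lemma vc_addX (C : VariableChange K) (W : WeierstrassCurve K) (X₁ X₂ L : K) :
    W.toAffine.addX (vcX C X₁) (vcX C X₂) ((C.u : K) * L + C.s)
      = vcX C ((C • W).toAffine.addX X₁ X₂ L) := by
  have hu : (C.u : K) ≠ 0 := C.u.ne_zero
  simp only [addX, variableChange_a₁, variableChange_a₂, vcX, Units.val_inv_eq_inv_val]
  field_simp
  ring

omit [DecidableEq K] in
lemma vc_negAddY (C : VariableChange K) (W : WeierstrassCurve K) (X₁ X₂ Y₁ L : K) :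
    W.toAffine.negAddY (vcX C X₁) (vcX C X₂) (vcY C X₁ Y₁) ((C.u : K) * L + C.s)
      = vcY C ((C • W).toAffine.addX X₁ X₂ L) ((C • W).toAffine.negAddY X₁ X₂ Y₁ L) := by
  have hu : (C.u : K) ≠ 0 := C.u.ne_zero
  rw [negAddY, vc_addX, negAddY]
  simp only [addX, variableChange_a₁, variableChange_a₂, vcX, vcY, Units.val_inv_eq_inv_val]
  field_simp
  ring

omit [DecidableEq K] in
lemma vc_addY (C : VariableChange K) (W : WeierstrassCurve K) (X₁ X₂ Y₁ L : K) :
    W.toAffine.addY (vcX C X₁) (vcX C X₂) (vcY C X₁ Y₁) ((C.u : K) * L + C.s)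
      = vcY C ((C • W).toAffine.addX X₁ X₂ L) ((C • W).toAffine.addY X₁ X₂ Y₁ L) := by
  rw [addY, vc_negAddY, vc_addX, vc_negY, addY]

end slope

section point

variable [DecidableEq K]

/-- The map on points induced by a change of variables. -/
def vcPointFun (C : VariableChange K) (W : WeierstrassCurve K) :
    (C • W).toAffine.Point → W.toAffine.Point
  | .zero => .zero
  | .some X Y h => .some (vcX C X) (vcY C X Y) ((vc_nonsingular C W X Y).mp h)

omit [DecidableEq K] in
@[simp] lemma vcPointFun_zero (C : VariableChange K) (W : WeierstrassCurve K) :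
    vcPointFun C W 0 = 0 := rfl

omit [DecidableEq K] in
@[simp] lemma vcPointFun_some (C : VariableChange K) (W : WeierstrassCurve K) {X Y : K}
    (h : (C • W).toAffine.Nonsingular X Y) :
    vcPointFun C W (.some X Y h) = .some (vcX C X) (vcY C X Y) ((vc_nonsingular C W X Y).mp h) :=
  rfl

lemma vcPointFun_add (C : VariableChange K) (W : WeierstrassCurve K)
    (P Q : (C • W).toAffine.Point) :
    vcPointFun C W (P + Q) = vcPointFun C W P + vcPointFun C W Q := by
  rcases P with _ | ⟨X₁, Y₁, h₁⟩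
  · change vcPointFun C W (0 + Q) = 0 + vcPointFun C W Q
    rw [zero_add, zero_add]
  rcases Q with _ | ⟨X₂, Y₂, h₂⟩
  · change vcPointFun C W (Point.some X₁ Y₁ h₁ + 0) = vcPointFun C W (Point.some X₁ Y₁ h₁) + 0
    rw [add_zero, add_zero]
  by_cases hxy : X₁ = X₂ ∧ Y₁ = (C • W).toAffine.negY X₂ Y₂
  · rw [Point.add_of_Y_eq hxy.1 hxy.2, vcPointFun_some, vcPointFun_some, vcPointFun_zero]
    symm
    apply Point.add_of_Y_eq (by rw [hxy.1])
    rw [vc_negY, ← hxy.2, hxy.1]
  · have hxy' : ¬(vcX C X₁ = vcX C X₂ ∧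
        vcY C X₁ Y₁ = W.toAffine.negY (vcX C X₂) (vcY C X₂ Y₂)) := by
      rintro ⟨hx, hy⟩
      have hx0 : X₁ = X₂ := vcX_injective C hx
      subst hx0
      rw [vc_negY] at hy
      exact hxy ⟨rfl, vcY_injective C X₁ hy⟩
    rw [Point.add_some hxy, vcPointFun_some, vcPointFun_some, vcPointFun_some,
      Point.add_some hxy']
    have hs := vc_slope C W h₁.1 h₂.1 hxy
    congr 1
    · rw [hs, vc_addX]
    · rw [hs, vc_addY]

/-- The additive homomorphism on points induced by a change of variables. -/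
def vcPointHom (C : VariableChange K) (W : WeierstrassCurve K) :
    (C • W).toAffine.Point →+ W.toAffine.Point where
  toFun := vcPointFun C W
  map_zero' := rfl
  map_add' := vcPointFun_add C W

omit [DecidableEq K] in
lemma vcPointFun_injective (C : VariableChange K) (W : WeierstrassCurve K) :
    Function.Injective (vcPointFun C W) := by
  rintro (_ | ⟨X₁, Y₁, h₁⟩) (_ | ⟨X₂, Y₂, h₂⟩) h
  · rfl
  · simp [vcPointFun] at h
  · simp [vcPointFun] at h
  · simp only [vcPointFun, Point.some.injEq] at h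
    obtain ⟨hx, hy⟩ := h
    have hx0 : X₁ = X₂ := vcX_injective C hx
    subst hx0
    have hy0 : Y₁ = Y₂ := vcY_injective C X₁ hy
    subst hy0
    rfl

omit [DecidableEq K] in
lemma vcX_surj (C : VariableChange K) (x : K) :
    vcX C (((C.u : K) ^ 2)⁻¹ * (x - C.r)) = x := by
  have hu : (C.u : K) ≠ 0 := C.u.ne_zero
  simp only [vcX]
  field_simp
  ring

omit [DecidableEq K] in
lemma vcY_surj (C : VariableChange K) (X y : K) :
    vcY C X (((C.u : K) ^ 3)⁻¹ * (y - (C.u : K) ^ 2 * C.s * X - C.t)) = y := by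
  have hu : (C.u : K) ≠ 0 := C.u.ne_zero
  simp only [vcY]
  field_simp
  ring

omit [DecidableEq K] in
lemma vcPointFun_surjective (C : VariableChange K) (W : WeierstrassCurve K) :
    Function.Surjective (vcPointFun C W) := by
  rintro (_ | ⟨x, y, h⟩)
  · exact ⟨0, rfl⟩
  · set X := ((C.u : K) ^ 2)⁻¹ * (x - C.r) with hX
    set Y := ((C.u : K) ^ 3)⁻¹ * (y - (C.u : K) ^ 2 * C.s * X - C.t) with hY
    have ex : vcX C X = x := vcX_surj C x
    have ey : vcY C X Y = y := vcY_surj C X y
    have h' : (C • W).toAffine.Nonsingular X Y := by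
      rw [vc_nonsingular, ex, ey]; exact h
    refine ⟨.some X Y h', ?_⟩
    simp only [vcPointFun_some]
    congr 1

/-- The additive equivalence on points induced by a change of variables:
`(X, Y) ↦ (u² X + r, u³ Y + u² s X + t)` from the points of `C • W` to the points of `W`. -/
noncomputable def vcPointEquiv (C : VariableChange K) (W : WeierstrassCurve K) :
    (C • W).toAffine.Point ≃+ W.toAffine.Point :=
  AddEquiv.ofBijective (vcPointHom C W) ⟨vcPointFun_injective C W, vcPointFun_surjective C W⟩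

@[simp] lemma vcPointEquiv_zero (C : VariableChange K) (W : WeierstrassCurve K) :
    vcPointEquiv C W 0 = 0 := rfl

@[simp] lemma vcPointEquiv_some (C : VariableChange K) (W : WeierstrassCurve K) {X Y : K}
    (h : (C • W).toAffine.Nonsingular X Y) :
    vcPointEquiv C W (.some X Y h) = .some (vcX C X) (vcY C X Y) ((vc_nonsingular C W X Y).mp h) :=
  rfl

end point

end Fermat.Agent.H46
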