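import Fermat.Agent.H46.S52Adapter
import Fermat.Agent.H26.TransferGalois

/-!
# P-S52: `FamilyIsoStatement` from the lifting property of the family alone

Using `Fermat.Agent.H26.exists_galois_transfer` (helper26), the only input needed from the
Rubin–Silverberg family is `RsHliftStatement`: every 5-torsion point of the fibre at `t = 0` of
`rsWp ℚ̄ c₄ c₆` is the specialisation of a 5-torsion point of the generic fibre.
-/

set_option autoImplicit false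

namespace Fermat.Agent.H46

open WeierstrassCurve WeierstrassCurve.Affine Polynomial
open Fermat.Agent.H38

section general

variable {L : Type*} [Field L] [Algebra ℚ L] [DecidableEq L] [DecidableEq (RatFunc L)]

/-- `H26.exists_galois_transfer` with all carriers replaced by equal ones. -/
theorem exists_galois_transfer_congr (Wq : WeierstrassCurve ℚ[X]) (WL : WeierstrassCurve L[X])
    (eW : Wq.map (Polynomial.mapRingHom (algebraMap ℚ L)) = WL)
    (t₀ t₁ : ℚ) (s₀ s₁ : L) (e₀ : algebraMap ℚ L t₀ = s₀) (e₁ : algebraMap ℚ L t₁ = s₁)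
    (E₀ E₁ : WeierstrassCurve ℚ) (hE₀ : Wq.map (Polynomial.evalRingHom t₀) = E₀)
    (hE₁ : Wq.map (Polynomial.evalRingHom t₁) = E₁)
    (m : ℕ) (hm : (m : L) ≠ 0)
    (h₀ : WL.Δ.eval s₀ ≠ 0) (h₁ : WL.Δ.eval s₁ ≠ 0)
    (hlift : ∀ P : (WL.map (Polynomial.evalRingHom s₀)).toAffine.Point, m • P = 0 →
      ∃ S : (WL.map (algebraMap L[X] (RatFunc L))).toAffine.Point,
        m • S = 0 ∧ Fermat.Agent.H26.specHom WL s₀ h₀ S = P) :
    ∃ ψ : Submodule.torsionBy ℤ ((E₀ : Affine ℚ)⁄L).Point m →+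
        Submodule.torsionBy ℤ ((E₁ : Affine ℚ)⁄L).Point m,
      Function.Injective ψ ∧ ∀ (σ : L ≃ₐ[ℚ] L) x, ψ (σ • x) = σ • ψ x := by
  subst eW e₀ e₁ hE₀ hE₁
  exact Fermat.Agent.H26.exists_galois_transfer h₀ h₁ hm hlift

end general

section family

lemma rsWp_map_mapRingHom {K K' : Type*} [Field K] [Field K'] (f : K →+* K') (c₄ c₆ : K) :
    (rsWp K c₄ c₆).map (Polynomial.mapRingHom f) = rsWp K' (f c₄) (f c₆) := by
  refine WeierstrassCurve.ext ?_ ?_ ?_ ?_ ?_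
  · simp [rsWp]
  · simp [rsWp]
  · simp [rsWp]
  · change (Polynomial.mapRingHom f) (-27 * rsC4 (C c₄) (C c₆) X) = -27 * rsC4 (C (f c₄)) (C (f c₆)) X
    rw [map_mul, map_rsC4]
    simp
  · change (Polynomial.mapRingHom f) (-54 * rsC6 (C c₄) (C c₆) X) = -54 * rsC6 (C (f c₄)) (C (f c₆)) X
    rw [map_mul, map_rsC6]
    simp

lemma rsWp_rat_map_eval (c₄ c₆ t : ℤ) :
    (rsWp ℚ (c₄ : ℚ) (c₆ : ℚ)).map (Polynomial.evalRingHom (t : ℚ))
      = (shortInt (-27 * rsC4 c₄ c₆ t) (-54 * rsC6 c₄ c₆ t)).map (Int.castRingHom ℚ) := by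
  rw [rsWp_map_eval]
  have h4 := map_rsC4 (Int.castRingHom ℚ) c₄ c₆ t
  have h6 := map_rsC6 (Int.castRingHom ℚ) c₄ c₆ t
  simp only [eq_intCast] at h4 h6
  ext
  · simp [shortInt]
  · simp [shortInt]
  · simp [shortInt]
  · simp [shortInt, h4]
  · simp [shortInt, h6]

/-- **WP-D, lifting form**: every 5-torsion point of the fibre at `0` of the family over `ℚ̄`
lifts to a 5-torsion point of the generic fibre. -/
def RsHliftStatement [DecidableEq (RatFunc QbarS)] : Prop :=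
  ∀ c₄ c₆ : ℤ, c₄ ^ 3 - c₆ ^ 2 ≠ 0 →
    ∀ (h₀ : (rsWp QbarS (c₄ : QbarS) (c₆ : QbarS)).Δ.eval (0 : QbarS) ≠ 0)
      (P : ((rsWp QbarS (c₄ : QbarS) (c₆ : QbarS)).map
        (evalRingHom (0 : QbarS))).toAffine.Point), (5 : ℕ) • P = 0 →
      ∃ S : ((rsWp QbarS (c₄ : QbarS) (c₆ : QbarS)).map
          (algebraMap QbarS[X] (RatFunc QbarS))).toAffine.Point,
        (5 : ℕ) • S = 0 ∧ Fermat.Agent.H26.specHom _ 0 h₀ S = P

theorem familyIso_of_rsHlift [DecidableEq (RatFunc QbarS)] (hlift : RsHliftStatement) :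
    FamilyIsoStatement := by
  intro c₄ c₆ t hΔ hD
  have h₀ := rsWp_good_zero c₄ c₆ hΔ
  have h₁ := rsWp_good c₄ c₆ t hΔ hD
  have hm : ((5 : ℕ) : QbarS) ≠ 0 := by norm_num
  have eW : (rsWp ℚ (c₄ : ℚ) (c₆ : ℚ)).map (Polynomial.mapRingHom (algebraMap ℚ QbarS))
      = rsWp QbarS (c₄ : QbarS) (c₆ : QbarS) := by
    rw [rsWp_map_mapRingHom]; simp
  have hE₀ : (rsWp ℚ (c₄ : ℚ) (c₆ : ℚ)).map (Polynomial.evalRingHom (0 : ℚ))
      = (shortInt (-27 * c₄) (-54 * c₆)).map (Int.castRingHom ℚ) := by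
    have := rsWp_rat_map_eval c₄ c₆ 0
    rw [rsC4_zero, rsC6_zero] at this
    rw [← this]; simp
  exact exists_galois_transfer_congr (rsWp ℚ (c₄ : ℚ) (c₆ : ℚ)) _ eW 0 (t : ℚ) 0 (t : QbarS)
    (by simp) (by simp) _ _ hE₀ (rsWp_rat_map_eval c₄ c₆ t) 5 hm h₀ h₁ (hlift c₄ c₆ hΔ h₀)

/-- **S52 from the lifting property of the family.** -/
theorem s52_of_rsHlift [DecidableEq (RatFunc QbarS)] (hlift : RsHliftStatement)
    (W : WeierstrassCurve ℤ) (hΔ : W.Δ ≠ 0) (hW : W.IsSemistableModel) :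
    ∃ W' : WeierstrassCurve ℤ, W'.Δ ≠ 0 ∧ W'.IsSemistableModel ∧ W'.ModRepIsIrreducible 3 ∧
      ∀ ℓ : ℕ, ℓ.Prime → W.IsGoodPrimeFor ℓ → W'.IsGoodPrimeFor ℓ → ℓ ≠ 5 →
        (5 : ℤ) ∣ (W'.apOfModel ℓ - W.apOfModel ℓ) :=
  s52_of_familyIso (familyIso_of_rsHlift hlift) W hΔ hW

end family

end Fermat.Agent.H46
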