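import Mathlib
import Fermat.Prelude.Def_FLTPrelim_Modularity

/-!
# P-S52, WP-F: integral model of a member of a family, semistability, congruences

Given an integral Weierstrass curve `W` and integers `A₁ B₁` (the values `A(t₁)`, `B(t₁)` of a
family `y² = x³ + A(t) x + B(t)` through `y² = x³ - 27 c₄ x - 54 c₆`), highly congruent to
`-27 c₄`, `-54 c₆`, we build the integral model `W'` with the same `a₁ a₂ a₃` and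
`-27 c₄(W') = A₁`, `-54 c₆(W') = B₁`, and prove semistability, the discriminant formula and the
equality of reductions at the primes dividing `6 Δ`.
-/

set_option autoImplicit false

namespace Fermat.Agent.H46

open WeierstrassCurve

/-- Shift `a₄` and `a₆` of an integral Weierstrass curve. -/
def shiftModel (W : WeierstrassCurve ℤ) (δ₄ δ₆ : ℤ) : WeierstrassCurve ℤ :=
  ⟨W.a₁, W.a₂, W.a₃, W.a₄ + δ₄, W.a₆ + δ₆⟩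

section basic

variable (W : WeierstrassCurve ℤ) (δ₄ δ₆ : ℤ)

@[simp] lemma shiftModel_a₁ : (shiftModel W δ₄ δ₆).a₁ = W.a₁ := rfl
@[simp] lemma shiftModel_a₂ : (shiftModel W δ₄ δ₆).a₂ = W.a₂ := rfl
@[simp] lemma shiftModel_a₃ : (shiftModel W δ₄ δ₆).a₃ = W.a₃ := rfl
@[simp] lemma shiftModel_a₄ : (shiftModel W δ₄ δ₆).a₄ = W.a₄ + δ₄ := rfl
@[simp] lemma shiftModel_a₆ : (shiftModel W δ₄ δ₆).a₆ = W.a₆ + δ₆ := rfl

lemma shiftModel_b₂ : (shiftModel W δ₄ δ₆).b₂ = W.b₂ := by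
  simp [WeierstrassCurve.b₂]

lemma shiftModel_b₄ : (shiftModel W δ₄ δ₆).b₄ = W.b₄ + 2 * δ₄ := by
  simp [WeierstrassCurve.b₄]; ring

lemma shiftModel_b₆ : (shiftModel W δ₄ δ₆).b₆ = W.b₆ + 4 * δ₆ := by
  simp [WeierstrassCurve.b₆]; ring

lemma shiftModel_c₄ : (shiftModel W δ₄ δ₆).c₄ = W.c₄ - 48 * δ₄ := by
  simp only [WeierstrassCurve.c₄, shiftModel_b₂, shiftModel_b₄]; ring

lemma shiftModel_c₆ :
    (shiftModel W δ₄ δ₆).c₆ = W.c₆ + 72 * W.b₂ * δ₄ - 864 * δ₆ := by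
  simp only [WeierstrassCurve.c₆, shiftModel_b₂, shiftModel_b₄, shiftModel_b₆]; ring

end basic

section reduction

variable (W : WeierstrassCurve ℤ) (δ₄ δ₆ : ℤ)

/-- If `p ∣ δ₄` and `p ∣ δ₆` the shifted model has the same reduction modulo `p`. -/
theorem shiftModel_reductionMod (p : ℕ) (h₄ : (p : ℤ) ∣ δ₄) (h₆ : (p : ℤ) ∣ δ₆) :
    (shiftModel W δ₄ δ₆).reductionMod p = W.reductionMod p := by
  have e₄ : ((δ₄ : ℤ) : ZMod p) = 0 := (ZMod.intCast_zmod_eq_zero_iff_dvd δ₄ p).2 h₄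
  have e₆ : ((δ₆ : ℤ) : ZMod p) = 0 := (ZMod.intCast_zmod_eq_zero_iff_dvd δ₆ p).2 h₆
  unfold WeierstrassCurve.reductionMod
  ext <;> simp [shiftModel, e₄, e₆]

theorem shiftModel_apOfModel (p : ℕ) (h₄ : (p : ℤ) ∣ δ₄) (h₆ : (p : ℤ) ∣ δ₆) :
    (shiftModel W δ₄ δ₆).apOfModel p = W.apOfModel p := by
  unfold WeierstrassCurve.apOfModel
  rw [shiftModel_reductionMod W δ₄ δ₆ p h₄ h₆]

end reduction

section disc

/-- The discriminant of a curve whose `(-27 c₄, -54 c₆)` is `(A₁, B₁)`, when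
`4 A₁³ + 27 B₁² = (4 a³ + 27 b²) D₁⁵` with `(a, b) = (-27 c₄(W), -54 c₆(W))`. -/
theorem Δ_eq_of_disc_identity (W W' : WeierstrassCurve ℤ) (A₁ B₁ D₁ : ℤ)
    (hA : -27 * W'.c₄ = A₁) (hB : -54 * W'.c₆ = B₁)
    (hdisc : 4 * A₁ ^ 3 + 27 * B₁ ^ 2 =
      (4 * (-27 * W.c₄) ^ 3 + 27 * (-54 * W.c₆) ^ 2) * D₁ ^ 5) :
    W'.Δ = W.Δ * D₁ ^ 5 := by
  have h1 := W.c_relation
  have h2 := W'.c_relation
  have key : (78732 * 1728 : ℤ) * W'.Δ = (78732 * 1728 : ℤ) * (W.Δ * D₁ ^ 5) := by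
    subst hA hB
    linear_combination (78732 : ℤ) * h2 - hdisc - (78732 : ℤ) * D₁ ^ 5 * h1
  exact mul_left_cancel₀ (by norm_num) key

end disc

section semistable

/-- Semistability of a model `W'` with `Δ(W') = Δ(W) D₁⁵`, `c₄(W') ≡ c₄(W)` modulo every prime
dividing `Δ(W)`, and `-27 c₄(W')` coprime to `D₁`. -/
theorem isSemistableModel_of_congr (W W' : WeierstrassCurve ℤ) (hW : W.IsSemistableModel)
    (A₁ D₁ : ℤ) (hA : -27 * W'.c₄ = A₁) (hΔ : W'.Δ = W.Δ * D₁ ^ 5)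
    (hc₄ : ∀ p : ℕ, p.Prime → (p : ℤ) ∣ W.Δ → (p : ℤ) ∣ W'.c₄ - W.c₄)
    (hcop : IsCoprime A₁ D₁) : W'.IsSemistableModel := by
  intro p hp hpΔ hpc
  have hp' : Prime (p : ℤ) := Nat.prime_iff_prime_int.mp hp
  rw [hΔ] at hpΔ
  rcases hp'.dvd_or_dvd hpΔ with h | h
  · -- `p ∣ Δ(W)`
    have h1 := hc₄ p hp h
    have h2 : (p : ℤ) ∣ W.c₄ := by
      have := dvd_sub hpc h1
      simpa using this
    exact hW p hp h h2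
  · -- `p ∣ D₁`
    have hD : (p : ℤ) ∣ D₁ := hp'.dvd_of_dvd_pow h
    have hA' : (p : ℤ) ∣ A₁ := by
      rw [← hA]; exact Dvd.dvd.mul_left hpc _
    have hu : IsUnit (p : ℤ) := hcop.isUnit_of_dvd' hA' hD
    exact hp'.not_isUnit hu

end semistable

section existence

/-- **WP-F, numerical form.** If `A₁ ≡ -27 c₄` and `B₁ ≡ -54 c₆` modulo `6⁷ Δ`, there is a shift
of `(a₄, a₆)` by multiples of `6 Δ` realising `(-27 c₄', -54 c₆') = (A₁, B₁)`. -/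
theorem exists_shift (W : WeierstrassCurve ℤ) (A₁ B₁ : ℤ)
    (hA : (6 : ℤ) ^ 7 * W.Δ ∣ A₁ + 27 * W.c₄) (hB : (6 : ℤ) ^ 7 * W.Δ ∣ B₁ + 54 * W.c₆) :
    ∃ δ₄ δ₆ : ℤ, 6 * W.Δ ∣ δ₄ ∧ 6 * W.Δ ∣ δ₆ ∧
      -27 * (shiftModel W δ₄ δ₆).c₄ = A₁ ∧ -54 * (shiftModel W δ₄ δ₆).c₆ = B₁ := by
  obtain ⟨k, hk⟩ := hA
  obtain ⟨l, hl⟩ := hB
  refine ⟨6 ^ 3 * W.Δ * k, 6 * W.Δ * (l + 3 * W.b₂ * k), ⟨6 ^ 2 * k, by ring⟩,
    ⟨l + 3 * W.b₂ * k, by ring⟩, ?_, ?_⟩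
  · rw [shiftModel_c₄]; linear_combination (-1 : ℤ) * hk
  · rw [shiftModel_c₆]; linear_combination (-1 : ℤ) * hl

/-- **WP-F, main statement (numerical form).** -/
theorem exists_semistable_model (W : WeierstrassCurve ℤ) (hW : W.IsSemistableModel)
    (A₁ B₁ D₁ : ℤ)
    (hA : (6 : ℤ) ^ 7 * W.Δ ∣ A₁ + 27 * W.c₄) (hB : (6 : ℤ) ^ 7 * W.Δ ∣ B₁ + 54 * W.c₆)
    (hdisc : 4 * A₁ ^ 3 + 27 * B₁ ^ 2 =
      (4 * (-27 * W.c₄) ^ 3 + 27 * (-54 * W.c₆) ^ 2) * D₁ ^ 5)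
    (hcop : IsCoprime A₁ D₁) :
    ∃ W' : WeierstrassCurve ℤ,
      W'.a₁ = W.a₁ ∧ W'.a₂ = W.a₂ ∧ W'.a₃ = W.a₃ ∧
      -27 * W'.c₄ = A₁ ∧ -54 * W'.c₆ = B₁ ∧
      W'.Δ = W.Δ * D₁ ^ 5 ∧
      W'.IsSemistableModel ∧
      (∀ p : ℕ, (p : ℤ) ∣ 6 * W.Δ → W'.reductionMod p = W.reductionMod p) ∧
      (∀ p : ℕ, (p : ℤ) ∣ 6 * W.Δ → W'.apOfModel p = W.apOfModel p) := by
  obtain ⟨δ₄, δ₆, h₄, h₆, hA', hB'⟩ := exists_shift W A₁ B₁ hA hB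
  have hΔ := Δ_eq_of_disc_identity W (shiftModel W δ₄ δ₆) A₁ B₁ D₁ hA' hB' hdisc
  refine ⟨shiftModel W δ₄ δ₆, rfl, rfl, rfl, hA', hB', hΔ, ?_, ?_, ?_⟩
  · refine isSemistableModel_of_congr W _ hW A₁ D₁ hA' hΔ ?_ hcop
    intro p _ hp
    rw [shiftModel_c₄]
    have : (p : ℤ) ∣ δ₄ := (hp.trans (Dvd.intro_left 6 rfl)).trans h₄
    simpa using (this.mul_left 48).neg_right
  · intro p hp
    exact shiftModel_reductionMod W δ₄ δ₆ p (hp.trans h₄) (hp.trans h₆)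
  · intro p hp
    exact shiftModel_apOfModel W δ₄ δ₆ p (hp.trans h₄) (hp.trans h₆)

end existence

section family

open Polynomial

/-- Values of an integer polynomial at multiples of `N` are congruent to the constant term. -/
lemma dvd_eval_sub_eval_zero (P : ℤ[X]) {N t : ℤ} (h : N ∣ t) : N ∣ P.eval t - P.eval 0 := by
  have := Polynomial.sub_dvd_eval_sub t 0 P
  rw [sub_zero] at this
  exact h.trans this

/-- Coprimality of the values from a Bezout certificate with constant right-hand side. -/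
lemma isCoprime_eval_of_bezout (𝒜 𝒟 𝒰 𝒱 : ℤ[X]) (c : ℤ) (h𝒟0 : 𝒟.eval 0 = 1)
    (hbez : 𝒰 * 𝒜 + 𝒱 * 𝒟 = C c) {t : ℤ} (ht : c ∣ t) :
    IsCoprime (𝒜.eval t) (𝒟.eval t) := by
  obtain ⟨e, he⟩ := dvd_eval_sub_eval_zero 𝒟 ht
  rw [h𝒟0] at he
  have hb : 𝒰.eval t * 𝒜.eval t + 𝒱.eval t * 𝒟.eval t = c := by
    have := congrArg (Polynomial.eval t) hbez
    simpa using this
  refine ⟨-e * 𝒰.eval t, 1 - e * 𝒱.eval t, ?_⟩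
  linear_combination he - e * hb

/-- **WP-F, family form.** Let `𝒜 ℬ 𝒟 ∈ ℤ[t]` with `(𝒜(0), ℬ(0), 𝒟(0)) = (-27 c₄, -54 c₆, 1)`,
`4 𝒜³ + 27 ℬ² = (4 a³ + 27 b²) 𝒟⁵` and a Bezout certificate `𝒰 𝒜 + 𝒱 𝒟 = c`. Then for every
`t ∈ 6⁷ Δ c ℤ` there is a semistable integral model `W'` of `y² = x³ + 𝒜(t) x + ℬ(t)` with the
same `a₁ a₂ a₃`, discriminant `Δ 𝒟(t)⁵ ≠ 0`, and the same reduction as `W` at all primes
dividing `6 Δ`. -/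
theorem exists_semistable_model_of_family (W : WeierstrassCurve ℤ) (hΔ : W.Δ ≠ 0)
    (hW : W.IsSemistableModel) (𝒜 ℬ 𝒟 𝒰 𝒱 : ℤ[X]) (c : ℤ)
    (h𝒜0 : 𝒜.eval 0 = -27 * W.c₄) (hℬ0 : ℬ.eval 0 = -54 * W.c₆) (h𝒟0 : 𝒟.eval 0 = 1)
    (hdisc : 4 * 𝒜 ^ 3 + 27 * ℬ ^ 2 =
      C (4 * (-27 * W.c₄) ^ 3 + 27 * (-54 * W.c₆) ^ 2) * 𝒟 ^ 5)
    (hbez : 𝒰 * 𝒜 + 𝒱 * 𝒟 = C c) (t : ℤ) (ht : (6 : ℤ) ^ 7 * W.Δ * c ∣ t) :
    ∃ W' : WeierstrassCurve ℤ,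
      W'.a₁ = W.a₁ ∧ W'.a₂ = W.a₂ ∧ W'.a₃ = W.a₃ ∧
      -27 * W'.c₄ = 𝒜.eval t ∧ -54 * W'.c₆ = ℬ.eval t ∧
      W'.Δ = W.Δ * 𝒟.eval t ^ 5 ∧ 𝒟.eval t ≠ 0 ∧ W'.Δ ≠ 0 ∧
      W'.IsSemistableModel ∧
      (∀ p : ℕ, (p : ℤ) ∣ 6 * W.Δ → W'.reductionMod p = W.reductionMod p) ∧
      (∀ p : ℕ, (p : ℤ) ∣ 6 * W.Δ → W'.apOfModel p = W.apOfModel p) := by
  have ht1 : (6 : ℤ) ^ 7 * W.Δ ∣ t := (Dvd.intro _ rfl).trans ht
  have ht2 : c ∣ t := (Dvd.intro_left _ rfl).trans ht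
  have ht3 : (6 : ℤ) ∣ t := (Dvd.intro (6 ^ 6 * W.Δ * c) (by ring)).trans ht
  have hA : (6 : ℤ) ^ 7 * W.Δ ∣ 𝒜.eval t + 27 * W.c₄ := by
    have := dvd_eval_sub_eval_zero 𝒜 ht1
    rw [h𝒜0] at this
    simpa [sub_eq_add_neg] using this
  have hB : (6 : ℤ) ^ 7 * W.Δ ∣ ℬ.eval t + 54 * W.c₆ := by
    have := dvd_eval_sub_eval_zero ℬ ht1
    rw [hℬ0] at this
    simpa [sub_eq_add_neg] using this
  have hd : 4 * 𝒜.eval t ^ 3 + 27 * ℬ.eval t ^ 2 =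
      (4 * (-27 * W.c₄) ^ 3 + 27 * (-54 * W.c₆) ^ 2) * 𝒟.eval t ^ 5 := by
    have := congrArg (Polynomial.eval t) hdisc
    simpa using this
  have hcop := isCoprime_eval_of_bezout 𝒜 𝒟 𝒰 𝒱 c h𝒟0 hbez ht2
  have hD : 𝒟.eval t ≠ 0 := by
    intro h0
    have := dvd_eval_sub_eval_zero 𝒟 ht3
    rw [h0, h𝒟0] at this
    norm_num at this
  obtain ⟨W', h1, h2, h3, h4, h5, h6, h7, h8, h9⟩ :=
    exists_semistable_model W hW _ _ _ hA hB hd hcop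
  exact ⟨W', h1, h2, h3, h4, h5, h6, hD, by rw [h6]; exact mul_ne_zero hΔ (pow_ne_zero _ hD),
    h7, h8, h9⟩

end family

end Fermat.Agent.H46
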