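import Fermat.Agent.H46.Transfer
import Fermat.Prelude.Def_FLTPrelim_FreyPackage
import Fermat.Prelude.Def_FLTPrelim_Ramification

/-!
# Transfer of Galois-theoretic statements to the short models of the Frey curve

* `torsion_fixed_of_short` : if `σ` fixes the `n`-torsion of `shortOf W r` it fixes the
  `n`-torsion of `W`.
* `galoisRepUnramifiedAt_of_short` : unramifiedness of the mod `n` representation transfers from
  `shortOf W r` to `W`.
* `freyShortAB P = ⟨0, B - A, 0, -A * B, 0⟩` and `freyShortC P = ⟨0, 2 A + B, 0, A * (A + B), 0⟩`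
  (`A = a ^ p`, `B = b ^ p`) are `shortOf P.freyCurve 0` and `shortOf P.freyCurve A`.
-/

set_option autoImplicit false

namespace Fermat.Agent.H46

open WeierstrassCurve WeierstrassCurve.Affine

section generic

variable {F : Type*} [Field F] {L : Type*} [Field L] [Algebra F L] [DecidableEq L]

/-- The equivariant equivalence of `Fermat.Agent.H46.toShortEquiv`, with target any curve `W'`
propositionally equal to `shortOf W r`. -/
noncomputable def toShortEquivOfEq (W : WeierstrassCurve.Affine F) (r : F) (h2 : (2 : L) ≠ 0)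
    {W' : WeierstrassCurve.Affine F} (h : shortOf W r = W') :
    (W.baseChange L).Point ≃+ (W'.baseChange L).Point :=
  h ▸ toShortEquiv W r h2

theorem toShortEquivOfEq_some (W : WeierstrassCurve.Affine F) (r : F) (h2 : (2 : L) ≠ 0)
    {W' : WeierstrassCurve.Affine F} (h : shortOf W r = W') {x y : L}
    (hxy : (W.baseChange L).Nonsingular x y) :
    ∃ h' : (W'.baseChange L).Nonsingular (4 * x - algebraMap F L r)
        (4 * (2 * y + algebraMap F L W.a₁ * x + algebraMap F L W.a₃)),
      toShortEquivOfEq W r h2 h (Point.some x y hxy) =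
        Point.some (4 * x - algebraMap F L r)
          (4 * (2 * y + algebraMap F L W.a₁ * x + algebraMap F L W.a₃)) h' := by
  subst h
  exact toShort_some W r h2 hxy

theorem toShortEquivOfEq_smul (W : WeierstrassCurve.Affine F) (r : F) (h2 : (2 : L) ≠ 0)
    {W' : WeierstrassCurve.Affine F} (h : shortOf W r = W')
    (σ : L ≃ₐ[F] L) (P : (W.baseChange L).Point) :
    toShortEquivOfEq W r h2 h (σ • P) = σ • toShortEquivOfEq W r h2 h P := by
  subst h
  exact toShort_smul W r h2 σ P

/-- If `σ` fixes every `n`-torsion point of a curve `W' = shortOf W r`, it fixes every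
`n`-torsion point of `W`. -/
theorem torsion_fixed_of_short (W : WeierstrassCurve.Affine F) (r : F) (h2 : (2 : L) ≠ 0)
    {W' : WeierstrassCurve.Affine F} (h : shortOf W r = W') (σ : L ≃ₐ[F] L) (n : ℤ)
    (hfix : ∀ Q : (W'.baseChange L).Point, n • Q = 0 → σ • Q = Q)
    (P : (W.baseChange L).Point) (hP : n • P = 0) : σ • P = P := by
  apply (toShortEquivOfEq W r h2 h).injective
  rw [toShortEquivOfEq_smul]
  apply hfix
  rw [← map_zsmul, hP, map_zero]

/-- Unramifiedness of the mod `n` representation transfers from `shortOf W r` to `W`. -/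
theorem galoisRepUnramifiedAt_of_short (W : WeierstrassCurve.Affine F) (r : F)
    (h2 : (2 : L) ≠ 0) {W' : WeierstrassCurve.Affine F} (h : shortOf W r = W') (n q : ℕ)
    (hW' : WeierstrassCurve.Affine.Point.GaloisRepUnramifiedAt (K := L) F W' n q) :
    WeierstrassCurve.Affine.Point.GaloisRepUnramifiedAt (K := L) F W n q := by
  intro A hA σ hσ x
  apply Subtype.ext
  have hx : (n : ℤ) • x.val = 0 := (Submodule.mem_torsionBy_iff _ _).mp x.property
  refine torsion_fixed_of_short W r h2 h σ (n : ℤ) ?_ x.val hx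
  intro Q hQ
  have := hW' A hA σ hσ ⟨Q, (Submodule.mem_torsionBy_iff _ _).mpr hQ⟩
  exact congrArg Subtype.val this

end generic

section frey

local notation "Qbar" => AlgebraicClosure ℚ

/-- The short model `Y² = X (X - A) (X + B) = X³ + (B - A) X² - A B X` of the Frey curve
(`A = a ^ p`, `B = b ^ p`); node at `X = 0` modulo primes dividing `a b`. -/
def freyShortAB (P : FreyPackage) : WeierstrassCurve.Affine ℚ :=
  ⟨0, (P.b : ℚ) ^ P.p - (P.a : ℚ) ^ P.p, 0, -((P.a : ℚ) ^ P.p * (P.b : ℚ) ^ P.p), 0⟩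

/-- The short model `Y² = X (X + A) (X + A + B) = X³ + (2 A + B) X² + A (A + B) X` of the Frey
curve (`A = a ^ p`, `B = b ^ p`, `A + B = c ^ p`); node at `X = 0` modulo primes dividing `c`. -/
def freyShortC (P : FreyPackage) : WeierstrassCurve.Affine ℚ :=
  ⟨0, 2 * (P.a : ℚ) ^ P.p + (P.b : ℚ) ^ P.p, 0,
    (P.a : ℚ) ^ P.p * ((P.a : ℚ) ^ P.p + (P.b : ℚ) ^ P.p), 0⟩

lemma shortOf_freyCurve_zero (P : FreyPackage) : shortOf P.freyCurve 0 = freyShortAB P := by
  simp only [shortOf, freyShortAB, WeierstrassCurve.b₂, WeierstrassCurve.b₄, WeierstrassCurve.b₆,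
    FreyPackage.freyCurve]
  congr 1 <;> ring

lemma shortOf_freyCurve_A (P : FreyPackage) :
    shortOf P.freyCurve ((P.a : ℚ) ^ P.p) = freyShortC P := by
  simp only [shortOf, freyShortC, WeierstrassCurve.b₂, WeierstrassCurve.b₄, WeierstrassCurve.b₆,
    FreyPackage.freyCurve]
  congr 1 <;> ring

lemma freyShortC_a₄ (P : FreyPackage) :
    (freyShortC P).a₄ = (P.a : ℚ) ^ P.p * (P.c : ℚ) ^ P.p := by
  have h : (P.a : ℚ) ^ P.p + (P.b : ℚ) ^ P.p = (P.c : ℚ) ^ P.p := by exact_mod_cast P.hFLT
  simp only [freyShortC, h]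

lemma freyShortC_a₂ (P : FreyPackage) :
    (freyShortC P).a₂ = (P.a : ℚ) ^ P.p + (P.c : ℚ) ^ P.p := by
  have h : (P.a : ℚ) ^ P.p + (P.b : ℚ) ^ P.p = (P.c : ℚ) ^ P.p := by exact_mod_cast P.hFLT
  simp only [freyShortC, ← h]
  ring

/-- The Galois-equivariant group isomorphism from the Frey curve onto its short model
`freyShortAB`, `(x, y) ↦ (4 x, 4 (2 y + x))`. -/
noncomputable def freyToShortAB (P : FreyPackage) :
    (WeierstrassCurve.Affine.baseChange P.freyCurve Qbar).Point ≃+ ((freyShortAB P).baseChange Qbar).Point :=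
  toShortEquivOfEq P.freyCurve 0 two_ne_zero (shortOf_freyCurve_zero P)

/-- The Galois-equivariant group isomorphism from the Frey curve onto its short model
`freyShortC`, `(x, y) ↦ (4 x - a ^ p, 4 (2 y + x))`. -/
noncomputable def freyToShortC (P : FreyPackage) :
    (WeierstrassCurve.Affine.baseChange P.freyCurve Qbar).Point ≃+ ((freyShortC P).baseChange Qbar).Point :=
  toShortEquivOfEq P.freyCurve ((P.a : ℚ) ^ P.p) two_ne_zero (shortOf_freyCurve_A P)

theorem freyToShortAB_smul (P : FreyPackage) (σ : Qbar ≃ₐ[ℚ] Qbar)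
    (x : (WeierstrassCurve.Affine.baseChange P.freyCurve Qbar).Point) :
    freyToShortAB P (σ • x) = σ • freyToShortAB P x :=
  toShortEquivOfEq_smul ..

theorem freyToShortC_smul (P : FreyPackage) (σ : Qbar ≃ₐ[ℚ] Qbar)
    (x : (WeierstrassCurve.Affine.baseChange P.freyCurve Qbar).Point) :
    freyToShortC P (σ • x) = σ • freyToShortC P x :=
  toShortEquivOfEq_smul ..

/-- If `σ` fixes the `n`-torsion of the short model `freyShortAB P`, it fixes the `n`-torsion of
the Frey curve. -/
theorem frey_torsion_fixed_of_shortAB (P : FreyPackage) (σ : Qbar ≃ₐ[ℚ] Qbar) (n : ℤ)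
    (hfix : ∀ Q : ((freyShortAB P).baseChange Qbar).Point, n • Q = 0 → σ • Q = Q)
    (x : (WeierstrassCurve.Affine.baseChange P.freyCurve Qbar).Point) (hx : n • x = 0) : σ • x = x :=
  torsion_fixed_of_short P.freyCurve 0 two_ne_zero (shortOf_freyCurve_zero P) σ n hfix x hx

/-- If `σ` fixes the `n`-torsion of the short model `freyShortC P`, it fixes the `n`-torsion of
the Frey curve. -/
theorem frey_torsion_fixed_of_shortC (P : FreyPackage) (σ : Qbar ≃ₐ[ℚ] Qbar) (n : ℤ)
    (hfix : ∀ Q : ((freyShortC P).baseChange Qbar).Point, n • Q = 0 → σ • Q = Q)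
    (x : (WeierstrassCurve.Affine.baseChange P.freyCurve Qbar).Point) (hx : n • x = 0) : σ • x = x :=
  torsion_fixed_of_short P.freyCurve ((P.a : ℚ) ^ P.p) two_ne_zero (shortOf_freyCurve_A P)
    σ n hfix x hx

/-- `S05` reduces to the short model `freyShortAB P`. -/
theorem frey_unramifiedAt_of_shortAB (P : FreyPackage) (q : ℕ)
    (h : WeierstrassCurve.Affine.Point.GaloisRepUnramifiedAt (K := Qbar) ℚ
      (freyShortAB P) P.p q) : P.GaloisRepUnramifiedAt q :=
  galoisRepUnramifiedAt_of_short P.freyCurve 0 two_ne_zero (shortOf_freyCurve_zero P) P.p q h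

/-- `S05` reduces to the short model `freyShortC P`. -/
theorem frey_unramifiedAt_of_shortC (P : FreyPackage) (q : ℕ)
    (h : WeierstrassCurve.Affine.Point.GaloisRepUnramifiedAt (K := Qbar) ℚ
      (freyShortC P) P.p q) : P.GaloisRepUnramifiedAt q :=
  galoisRepUnramifiedAt_of_short P.freyCurve ((P.a : ℚ) ^ P.p) two_ne_zero
    (shortOf_freyCurve_A P) P.p q h

end frey

end Fermat.Agent.H46
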