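import Fermat.Agent.H46.FrobDescentCore
import Fermat.Agent.H55.Zeta.Interfaces

/-!
# P-SS row SS-TMB-DESCENT: `FrobDescentStatement`
-/

set_option autoImplicit false

namespace Fermat.Agent.H46

/-- **Frobenius descent** (Lang's theorem in the easy case of finite orbits), in the shape of
`Fermat.Agent.H55.Zeta.FrobDescentStatement`. -/
theorem frobDescent : Fermat.Agent.H55.Zeta.FrobDescentStatement := by
  intro k V _ _ _ _ _ q _ _ e he Ψ hΨ hfin
  exact FrobDescent.fixed_finite_and_ncard q e he Ψ hΨ hfin

end Fermat.Agent.H46
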