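import Mathlib

/-!
# Frobenius descent for semilinear maps with finite orbits (P-SS row SS-TMB-DESCENT)

Let `k` be an algebraically closed field of characteristic `q`, `Q = q ^ e` with `e > 0`, `V` a
finite-dimensional `k`-vector space and `Ψ : V →+ V` with `Ψ (c • v) = c ^ Q • Ψ v` such that
every vector has a finite orbit.  Then `Ψ` has exactly `Q ^ dim V` fixed vectors.

Proof.  (1) The fixed vectors span `V`: if `Ψ^s v = v` and `c ^ (Q ^ s) = c` then
`T_c = ∑_{j<s} Ψ^j (c • v) = ∑_j c ^ (Q ^ j) • Ψ^j v` is fixed; a functional `λ` vanishing on the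
fixed vectors gives the polynomial `∑_j λ(Ψ^j v) X ^ (Q ^ j)` of degree `< Q ^ s` with `Q ^ s`
roots, so `λ v = 0`.  (2) In a basis of fixed vectors, `v` is fixed iff its coordinates are fixed
by `c ↦ c ^ Q`, and there are exactly `Q` such scalars.
-/

set_option autoImplicit false

namespace Fermat.Agent.H46.FrobDescent

open Polynomial

section field

variable {k : Type*} [Field k] [IsAlgClosed k] (q : ℕ) [Fact q.Prime] [CharP k q]

/-- The set of solutions of `c ^ (q ^ m) = c` in an algebraically closed field of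
characteristic `q` is the root set of `X ^ (q ^ m) - X`. -/
lemma fixedScalars_eq_rootSet (m : ℕ) (hm : m ≠ 0) :
    {c : k | c ^ (q ^ m) = c} = (X ^ (q ^ m) - X : k[X]).rootSet k := by
  have hq : 1 < q := (Fact.out : q.Prime).one_lt
  ext c
  rw [Set.mem_ofPred_eq, Polynomial.mem_rootSet]
  simp only [map_sub, map_pow, aeval_X]
  constructor
  · intro h
    exact ⟨FiniteField.X_pow_card_pow_sub_X_ne_zero k hm hq, sub_eq_zero.mpr h⟩
  · intro h
    exact sub_eq_zero.mp h.2

lemma fixedScalars_finite (m : ℕ) (hm : m ≠ 0) : {c : k | c ^ (q ^ m) = c}.Finite := by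
  rw [fixedScalars_eq_rootSet q m hm]
  exact Polynomial.rootSet_finite _ k

lemma fixedScalars_ncard (m : ℕ) (hm : m ≠ 0) : {c : k | c ^ (q ^ m) = c}.ncard = q ^ m := by
  have hq : 1 < q := (Fact.out : q.Prime).one_lt
  rw [fixedScalars_eq_rootSet q m hm, ← Nat.card_coe_set_eq, Nat.card_eq_fintype_card,
    Polynomial.card_rootSet_eq_natDegree
      (galois_poly_separable q (q ^ m) (dvd_pow_self q hm)) (IsAlgClosed.splits _),
    FiniteField.X_pow_card_pow_sub_X_natDegree_eq k hm hq]

end field

section main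

variable {k V : Type*} [Field k] [AddCommGroup V] [Module k V]
  (Q : ℕ) (Ψ : V →+ V) (hΨ : ∀ (c : k) (v : V), Ψ (c • v) = c ^ Q • Ψ v)

include hΨ

lemma iterate_smul (j : ℕ) (c : k) (v : V) : Ψ^[j] (c • v) = c ^ (Q ^ j) • Ψ^[j] v := by
  induction j generalizing c v with
  | zero => simp
  | succ j ih =>
    rw [Function.iterate_succ_apply, hΨ, ih, ← pow_mul, Function.iterate_succ_apply, pow_succ']

/-- The averaging sums are fixed vectors. -/
lemma sum_iterate_fixed (s : ℕ) (v : V) (hv : Ψ^[s] v = v) (c : k) (hc : c ^ (Q ^ s) = c) :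
    Ψ (∑ j ∈ Finset.range s, Ψ^[j] (c • v)) = ∑ j ∈ Finset.range s, Ψ^[j] (c • v) := by
  have h1 : Ψ (∑ j ∈ Finset.range s, Ψ^[j] (c • v))
      = ∑ j ∈ Finset.range s, Ψ^[j + 1] (c • v) := by
    rw [map_sum]
    refine Finset.sum_congr rfl fun j _ => ?_
    rw [Function.iterate_succ_apply']
  have h2 := Finset.sum_range_succ (fun j => Ψ^[j] (c • v)) s
  have h3 := Finset.sum_range_succ' (fun j => Ψ^[j] (c • v)) s
  have h4 : Ψ^[s] (c • v) = Ψ^[0] (c • v) := by
    rw [iterate_smul Q Ψ hΨ, hc, hv]; rfl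
  rw [h1]
  rw [h2, h4] at h3
  exact add_right_cancel h3.symm

end main

section span

variable {k V : Type*} [Field k] [IsAlgClosed k] [AddCommGroup V] [Module k V]
  (q : ℕ) [Fact q.Prime] [CharP k q] (e : ℕ) (he : 0 < e)
  (Ψ : V →+ V) (hΨ : ∀ (c : k) (v : V), Ψ (c • v) = c ^ (q ^ e) • Ψ v)

include he hΨ

/-- **Spanning**: a periodic vector lies in the `k`-span of the fixed vectors. -/
theorem mem_span_fixed (v : V) (s : ℕ) (hs : 0 < s) (hv : Ψ^[s] v = v) :
    v ∈ Submodule.span k {w : V | Ψ w = w} := by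
  have hq : 1 < q := (Fact.out : q.Prime).one_lt
  have hQ : 1 < q ^ e := Nat.one_lt_pow he.ne' hq
  by_contra hnot
  obtain ⟨l, hlv, hl⟩ := Submodule.exists_dual_map_eq_bot_of_notMem hnot inferInstance
  have hl0 : ∀ w ∈ Submodule.span k {w : V | Ψ w = w}, l w = 0 := by
    intro w hw
    have : l w ∈ (Submodule.span k {w : V | Ψ w = w}).map l := Submodule.mem_map_of_mem hw
    rw [hl] at this
    exact (Submodule.mem_bot k).mp this
  -- the polynomial
  obtain ⟨p, hp⟩ : ∃ p : k[X], p = ∑ j ∈ Finset.range s, C (l (Ψ^[j] v)) * X ^ ((q ^ e) ^ j) :=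
    ⟨_, rfl⟩
  have hes : e * s ≠ 0 := Nat.mul_ne_zero he.ne' hs.ne'
  have hfinS := fixedScalars_finite (k := k) q (e * s) hes
  have hroot : ∀ c ∈ hfinS.toFinset, p.eval c = 0 := by
    intro c hc
    rw [Set.Finite.mem_toFinset, Set.mem_ofPred_eq, pow_mul] at hc
    have hfix := sum_iterate_fixed (q ^ e) Ψ hΨ s v hv c hc
    have h0 := hl0 _ (Submodule.subset_span hfix)
    rw [map_sum] at h0
    rw [hp, eval_finsetSum, ← h0]
    refine Finset.sum_congr rfl fun j _ => ?_
    rw [iterate_smul (q ^ e) Ψ hΨ, map_smul, eval_mul, eval_C, eval_pow, eval_X, smul_eq_mul,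
      mul_comm]
  have hdeg : p.natDegree < hfinS.toFinset.card := by
    have hcard : hfinS.toFinset.card = (q ^ e) ^ s := by
      rw [← Set.ncard_eq_toFinset_card _ hfinS, fixedScalars_ncard q (e * s) hes, pow_mul]
    rw [hcard, hp]
    refine lt_of_le_of_lt (natDegree_sum_le_of_forall_le _ _ (n := (q ^ e) ^ (s - 1)) ?_) ?_
    · intro j hj
      refine le_trans (natDegree_C_mul_X_pow_le _ _) ?_
      exact Nat.pow_le_pow_right (by omega) (by rw [Finset.mem_range] at hj; omega)
    · exact Nat.pow_lt_pow_right hQ (by omega)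
  have hp0 : p = 0 := eq_zero_of_natDegree_lt_card_of_eval_eq_zero' p _ hroot hdeg
  have hcoeff : p.coeff 1 = l v := by
    rw [hp, finsetSum_coeff]
    rw [Finset.sum_eq_single 0]
    · simp
    · intro j _ hj
      rw [coeff_C_mul_X_pow, if_neg]
      intro h1
      have : 1 < (q ^ e) ^ j := Nat.one_lt_pow hj hQ
      omega
    · intro h
      exact absurd (Finset.mem_range.mpr hs) h
  apply hlv
  rw [← hcoeff, hp0, coeff_zero]

end span

section count

variable {k V : Type*} [Field k] [IsAlgClosed k] [AddCommGroup V] [Module k V]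
  [FiniteDimensional k V]
  (q : ℕ) [Fact q.Prime] [CharP k q] (e : ℕ) (he : 0 < e)
  (Ψ : V →+ V) (hΨ : ∀ (c : k) (v : V), Ψ (c • v) = c ^ (q ^ e) • Ψ v)
  (hfin : ∀ v : V, ∃ s : ℕ, 0 < s ∧ Ψ^[s] v = v)

include he hΨ hfin

/-- **Frobenius descent**: a `q ^ e`-semilinear additive map with finite orbits on a
finite-dimensional vector space over an algebraically closed field of characteristic `q` has
exactly `(q ^ e) ^ dim V` fixed vectors. -/
theorem fixed_finite_and_ncard :
    {v : V | Ψ v = v}.Finite ∧ {v : V | Ψ v = v}.ncard = (q ^ e) ^ Module.finrank k V := by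
  classical
  -- a basis of fixed vectors
  have hspan : Submodule.span k {w : V | Ψ w = w} = ⊤ := by
    rw [eq_top_iff]
    intro v _
    obtain ⟨s, hs, hv⟩ := hfin v
    exact mem_span_fixed q e he Ψ hΨ v s hs hv
  obtain ⟨b, hbW, hbspan, hbli⟩ := exists_linearIndependent k {w : V | Ψ w = w}
  let B : Module.Basis b k V := Module.Basis.mk hbli (by
    rw [Subtype.range_coe, hbspan, hspan])
  have hBfix : ∀ i : b, Ψ (B i) = B i := by
    intro i
    have : B i = (i : V) := by simp [B]
    rw [this]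
    exact hbW i.2
  let _ : Fintype b := FiniteDimensional.fintypeBasisIndex B
  -- coordinates of `Ψ v`
  have hcoord : ∀ v : V, B.equivFun (Ψ v) = fun i => (B.equivFun v i) ^ (q ^ e) := by
    intro v
    have h1 : Ψ v = B.equivFun.symm (fun i => (B.equivFun v i) ^ (q ^ e)) := by
      conv_lhs => rw [← B.sum_equivFun v]
      rw [map_sum, Module.Basis.equivFun_symm_apply]
      refine Finset.sum_congr rfl fun i _ => ?_
      rw [hΨ, hBfix]
    rw [h1, LinearEquiv.apply_symm_apply]
  have hiff : ∀ v : V, Ψ v = v ↔ ∀ i, (B.equivFun v i) ^ (q ^ e) = B.equivFun v i := by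
    intro v
    constructor
    · intro h i
      have := congrFun (hcoord v) i
      rw [h] at this
      exact this.symm
    · intro h
      apply B.equivFun.injective
      rw [hcoord]
      funext i
      exact h i
  -- the bijection with `𝔽_Q ^ b`
  let E : {v : V // Ψ v = v} ≃ (b → {c : k // c ^ (q ^ e) = c}) :=
    (Equiv.subtypeEquiv B.equivFun.toEquiv (fun v => hiff v)).trans
      (Equiv.subtypePiEquivPi (p := fun (_ : b) (c : k) => c ^ (q ^ e) = c))
  have hFfin : Finite {c : k // c ^ (q ^ e) = c} :=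
    (fixedScalars_finite (k := k) q e he.ne').to_subtype
  have hFcard : Nat.card {c : k // c ^ (q ^ e) = c} = q ^ e := by
    have := fixedScalars_ncard (k := k) q e he.ne'
    rw [← Nat.card_coe_set_eq] at this
    exact this
  have hWfin : Finite {v : V // Ψ v = v} := Finite.of_equiv _ E.symm
  refine ⟨Set.finite_coe_iff.mp hWfin, ?_⟩
  rw [← Nat.card_coe_set_eq]
  change Nat.card {v : V // Ψ v = v} = _
  rw [Nat.card_congr E, Nat.card_fun, hFcard, Module.finrank_eq_card_basis B,
    Nat.card_eq_fintype_card]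

end count

end Fermat.Agent.H46.FrobDescent
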