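import Fermat.Agent.H46.S52Assembly
import Fermat.Agent.H26.TorsionTransfer

/-!
# P-S52: adapter from a transfer map on plain curves over `ℚ̄` to `FamilyIsoStatement`

WP-D naturally produces a map `τ` between the points of two *plain* Weierstrass curves over
`K = ℚ̄` (fibres `(Wp.map (evalRingHom t)).toAffine` of a family `Wp : WeierstrassCurve K[X]`),
additive / injective on 5-torsion and commuting with the coordinatewise Galois action.  The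
frozen statement lives on the prelude carrier `((W.map (Int.castRingHom ℚ))⁄ℚ̄).Point` with the
prelude Galois action.  This file bridges the two.

* `IsConjPt σ P Q` : `Q` is the coordinatewise `σ`-conjugate of `P` (relation on points of a plain
  curve; no hypothesis on the coefficients needed).
* `exists_phi_of_plain` : the generic adapter.
* `rsWp c₄ c₆ : WeierstrassCurve K[X]` : the Rubin–Silverberg family, and the identification of its
  fibres with the prelude carriers.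
* `familyIso_of_transfer`, `familyIso_of_hlift` : `FamilyIsoStatement` from the transfer data.
-/

set_option autoImplicit false

namespace Fermat.Agent.H46

open WeierstrassCurve WeierstrassCurve.Affine Polynomial
open Fermat.Agent.H38

section conj

variable {K : Type*} [Field K]

/-- `Q` is the coordinatewise image of `P` under `σ`. -/
def IsConjPt {W : Affine K} (σ : K → K) : W.Point → W.Point → Prop
  | .zero, .zero => True
  | .some x y _, .some x' y' _ => x' = σ x ∧ y' = σ y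
  | _, _ => False

lemma isConjPt_zero_zero {W : Affine K} (σ : K → K) : IsConjPt (W := W) σ 0 0 := trivial

lemma isConjPt_some_some {W : Affine K} (σ : K → K) {x y x' y' : K} (h : W.Nonsingular x y)
    (h' : W.Nonsingular x' y') (hx : x' = σ x) (hy : y' = σ y) :
    IsConjPt σ (Point.some x y h) (Point.some x' y' h') := ⟨hx, hy⟩

lemma isConjPt_unique {W : Affine K} (σ : K → K) {P Q Q' : W.Point}
    (h : IsConjPt σ P Q) (h' : IsConjPt σ P Q') : Q = Q' := by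
  rcases P with _ | ⟨x, y, hP⟩ <;> rcases Q with _ | ⟨x₁, y₁, h₁⟩ <;>
    rcases Q' with _ | ⟨x₂, y₂, h₂⟩
  · rfl
  · exact h'.elim
  · exact h.elim
  · exact h.elim
  · exact h.elim
  · exact h.elim
  · exact h'.elim
  · obtain ⟨hx, hy⟩ := h
    obtain ⟨hx', hy'⟩ := h'
    exact point_some_congr h₁ h₂ (hx.trans hx'.symm) (hy.trans hy'.symm)

lemma isConjPt_zero_left {W : Affine K} (σ : K → K) {Q : W.Point} (h : IsConjPt σ 0 Q) :
    Q = 0 :=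
  isConjPt_unique σ h (isConjPt_zero_zero σ)

end conj

section generic

variable {E E' : Affine ℚ}

/-- The prelude Galois action is the coordinatewise action. -/
lemma isConjPt_smul (σ : QbarS ≃ₐ[ℚ] QbarS) (P : (E⁄QbarS).Point) :
    IsConjPt σ P (σ • P) := by
  rcases P with _ | ⟨x, y, h⟩
  · exact trivial
  · exact ⟨rfl, rfl⟩

lemma mem_torsFive_iff {P : (E⁄QbarS).Point} :
    P ∈ Submodule.torsionBy ℤ (E⁄QbarS).Point ((5 : ℕ) : ℤ) ↔ (5 : ℕ) • P = 0 := by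
  rw [Submodule.mem_torsionBy_iff, natCast_zsmul]

/-- **Generic adapter**, carriers equal to the prelude carriers. -/
theorem exists_phi_of_map (τ : (E⁄QbarS).Point → (E'⁄QbarS).Point)
    (hadd : ∀ P Q, (5 : ℕ) • P = 0 → (5 : ℕ) • Q = 0 → τ (P + Q) = τ P + τ Q)
    (htors : ∀ P, (5 : ℕ) • P = 0 → (5 : ℕ) • τ P = 0)
    (hinj : ∀ P, (5 : ℕ) • P = 0 → τ P = 0 → P = 0)
    (hconj : ∀ (σ : QbarS ≃ₐ[ℚ] QbarS) P Q, (5 : ℕ) • P = 0 →
      IsConjPt σ P Q → IsConjPt σ (τ P) (τ Q)) :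
    ∃ φ : Submodule.torsionBy ℤ (E⁄QbarS).Point ((5 : ℕ) : ℤ) →+
        Submodule.torsionBy ℤ (E'⁄QbarS).Point ((5 : ℕ) : ℤ),
      Function.Injective φ ∧
      ∀ (σ : QbarS ≃ₐ[ℚ] QbarS) (P : Submodule.torsionBy ℤ (E⁄QbarS).Point ((5 : ℕ) : ℤ)),
        φ (σ • P) = σ • φ P := by
  let φ : Submodule.torsionBy ℤ (E⁄QbarS).Point ((5 : ℕ) : ℤ) →+
      Submodule.torsionBy ℤ (E'⁄QbarS).Point ((5 : ℕ) : ℤ) :=
    AddMonoidHom.mk' (fun P => ⟨τ P.1, mem_torsFive_iff.mpr (htors P.1 (mem_torsFive_iff.mp P.2))⟩)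
      (fun P Q => Subtype.ext (hadd P.1 Q.1 (mem_torsFive_iff.mp P.2) (mem_torsFive_iff.mp Q.2)))
  have hφ : ∀ P, ((φ P : Submodule.torsionBy ℤ (E'⁄QbarS).Point ((5 : ℕ) : ℤ)) :
      (E'⁄QbarS).Point) = τ P.1 := fun _ => rfl
  refine ⟨φ, ?_, ?_⟩
  · rw [injective_iff_map_eq_zero]
    intro P hP
    apply Subtype.ext
    have h0 : τ P.1 = 0 := by
      rw [← hφ, hP]; rfl
    exact hinj P.1 (mem_torsFive_iff.mp P.2) h0
  · intro σ P
    apply Subtype.ext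
    have h1 : IsConjPt σ (τ P.1) (τ (σ • P.1)) :=
      hconj σ P.1 (σ • P.1) (mem_torsFive_iff.mp P.2) (isConjPt_smul σ P.1)
    have h2 : IsConjPt σ (τ P.1) (σ • τ P.1) := isConjPt_smul σ (τ P.1)
    exact isConjPt_unique σ h1 h2

/-- **Generic adapter**, plain curves `W₀`, `W₁` over `ℚ̄` equal to the prelude carriers. -/
theorem exists_phi_of_plain {W₀ W₁ : Affine QbarS} (e₀ : E⁄QbarS = W₀) (e₁ : E'⁄QbarS = W₁)
    (τ : W₀.Point → W₁.Point)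
    (hadd : ∀ P Q, (5 : ℕ) • P = 0 → (5 : ℕ) • Q = 0 → τ (P + Q) = τ P + τ Q)
    (htors : ∀ P, (5 : ℕ) • P = 0 → (5 : ℕ) • τ P = 0)
    (hinj : ∀ P, (5 : ℕ) • P = 0 → τ P = 0 → P = 0)
    (hconj : ∀ (σ : QbarS ≃ₐ[ℚ] QbarS) P Q, (5 : ℕ) • P = 0 →
      IsConjPt σ P Q → IsConjPt σ (τ P) (τ Q)) :
    ∃ φ : Submodule.torsionBy ℤ (E⁄QbarS).Point ((5 : ℕ) : ℤ) →+
        Submodule.torsionBy ℤ (E'⁄QbarS).Point ((5 : ℕ) : ℤ),
      Function.Injective φ ∧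
      ∀ (σ : QbarS ≃ₐ[ℚ] QbarS) (P : Submodule.torsionBy ℤ (E⁄QbarS).Point ((5 : ℕ) : ℤ)),
        φ (σ • P) = σ • φ P := by
  subst e₀ e₁
  exact exists_phi_of_map τ hadd htors hinj hconj

end generic

section family

variable (K : Type*) [Field K]

/-- The Rubin–Silverberg family as a Weierstrass curve over `K[X]`. -/
noncomputable def rsWp (c₄ c₆ : K) : WeierstrassCurve K[X] :=
  ⟨0, 0, 0, -27 * rsC4 (C c₄) (C c₆) X, -54 * rsC6 (C c₄) (C c₆) X⟩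

variable {K}

lemma rsWp_map_eval (c₄ c₆ t : K) :
    (rsWp K c₄ c₆).map (evalRingHom t) = ⟨0, 0, 0, -27 * rsC4 c₄ c₆ t, -54 * rsC6 c₄ c₆ t⟩ := by
  ext
  · simp [rsWp]
  · simp [rsWp]
  · simp [rsWp]
  · change (evalRingHom t) (-27 * rsC4 (C c₄) (C c₆) X) = -27 * rsC4 c₄ c₆ t
    rw [map_mul, map_rsC4]
    simp
  · change (evalRingHom t) (-54 * rsC6 (C c₄) (C c₆) X) = -54 * rsC6 c₄ c₆ t
    rw [map_mul, map_rsC6]
    simp

lemma rsWp_Δ_eval (c₄ c₆ t : K) :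
    27 * (rsWp K c₄ c₆).Δ.eval t
      = 27 * (-16 * ((4 * (-27 * c₄) ^ 3 + 27 * (-54 * c₆) ^ 2) * rsDisc c₄ c₆ t ^ 5)) := by
  have h1 : (rsWp K c₄ c₆).Δ.eval t = ((rsWp K c₄ c₆).map (evalRingHom t)).Δ := by
    rw [WeierstrassCurve.map_Δ]; rfl
  rw [h1, rsWp_map_eval]
  have h := rs_disc_rel_27 c₄ c₆ t
  simp only [WeierstrassCurve.Δ, WeierstrassCurve.b₂, WeierstrassCurve.b₄, WeierstrassCurve.b₆,
    WeierstrassCurve.b₈]
  linear_combination (-16 : K) * h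

lemma rsWp_Δ_eval_ne_zero [CharZero K] (c₄ c₆ t : K) (hΔ : c₄ ^ 3 - c₆ ^ 2 ≠ 0)
    (hD : rsDisc c₄ c₆ t ≠ 0) : (rsWp K c₄ c₆).Δ.eval t ≠ 0 := by
  intro h0
  have h := rsWp_Δ_eval c₄ c₆ t
  rw [h0, mul_zero] at h
  have hΔ₀ : 4 * (-27 * c₄) ^ 3 + 27 * (-54 * c₆) ^ 2 = -78732 * (c₄ ^ 3 - c₆ ^ 2) := by ring
  rw [hΔ₀] at h
  have : (27 : K) * (-16 * (-78732 * (c₄ ^ 3 - c₆ ^ 2) * rsDisc c₄ c₆ t ^ 5)) ≠ 0 := by
    apply mul_ne_zero (by norm_num)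
    apply mul_ne_zero (by norm_num)
    exact mul_ne_zero (mul_ne_zero (by norm_num) hΔ) (pow_ne_zero _ hD)
  exact this h.symm

end family

section final

/-- The prelude carrier of the member at `t` is the fibre of `rsWp` at `t`. -/
lemma carrier_eq_rsWp (c₄ c₆ t : ℤ) :
    (((shortInt (-27 * rsC4 c₄ c₆ t) (-54 * rsC6 c₄ c₆ t)).map (Int.castRingHom ℚ) : Affine ℚ)⁄QbarS)
      = ((rsWp QbarS (c₄ : QbarS) (c₆ : QbarS)).map (evalRingHom (t : QbarS))).toAffine := by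
  rw [rsWp_map_eval]
  have h4 := map_rsC4 (Int.castRingHom QbarS) c₄ c₆ t
  have h6 := map_rsC6 (Int.castRingHom QbarS) c₄ c₆ t
  simp only [eq_intCast] at h4 h6
  change ((shortInt (-27 * rsC4 c₄ c₆ t) (-54 * rsC6 c₄ c₆ t)).map (Int.castRingHom ℚ)).map
    (algebraMap ℚ QbarS) = _
  ext
  · simp [shortInt]
  · simp [shortInt]
  · simp [shortInt]
  · simp [shortInt, h4]
  · simp [shortInt, h6]

/-- The prelude carrier of `E` is the fibre of `rsWp` at `0`. -/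
lemma carrier_eq_rsWp_zero (c₄ c₆ : ℤ) :
    (((shortInt (-27 * c₄) (-54 * c₆)).map (Int.castRingHom ℚ) : Affine ℚ)⁄QbarS)
      = ((rsWp QbarS (c₄ : QbarS) (c₆ : QbarS)).map (evalRingHom (0 : QbarS))).toAffine := by
  have := carrier_eq_rsWp c₄ c₆ 0
  rw [rsC4_zero, rsC6_zero] at this
  rw [this]
  simp

/-- **WP-D, transfer form**: a map between the fibres of `rsWp` at `0` and at `t`, additive and
injective on 5-torsion, commuting with coordinatewise Galois conjugation. -/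
def TransferStatement : Prop :=
  ∀ c₄ c₆ t : ℤ, c₄ ^ 3 - c₆ ^ 2 ≠ 0 → rsDisc c₄ c₆ t ≠ 0 →
    ∃ τ : ((rsWp QbarS (c₄ : QbarS) (c₆ : QbarS)).map (evalRingHom (0 : QbarS))).toAffine.Point →
        ((rsWp QbarS (c₄ : QbarS) (c₆ : QbarS)).map (evalRingHom (t : QbarS))).toAffine.Point,
      (∀ P Q, (5 : ℕ) • P = 0 → (5 : ℕ) • Q = 0 → τ (P + Q) = τ P + τ Q) ∧
      (∀ P, (5 : ℕ) • P = 0 → (5 : ℕ) • τ P = 0) ∧
      (∀ P, (5 : ℕ) • P = 0 → τ P = 0 → P = 0) ∧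
      (∀ (σ : QbarS ≃ₐ[ℚ] QbarS) P Q, (5 : ℕ) • P = 0 →
        IsConjPt σ P Q → IsConjPt σ (τ P) (τ Q))

theorem familyIso_of_transfer (h : TransferStatement) : FamilyIsoStatement := by
  intro c₄ c₆ t hΔ hD
  obtain ⟨τ, hadd, htors, hinj, hconj⟩ := h c₄ c₆ t hΔ hD
  exact exists_phi_of_plain (carrier_eq_rsWp_zero c₄ c₆) (carrier_eq_rsWp c₄ c₆ t) τ hadd htors
    hinj hconj

/-- Good reduction of the family at `t`. -/
lemma rsWp_good (c₄ c₆ t : ℤ) (hΔ : c₄ ^ 3 - c₆ ^ 2 ≠ 0) (hD : rsDisc c₄ c₆ t ≠ 0) :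
    (rsWp QbarS (c₄ : QbarS) (c₆ : QbarS)).Δ.eval (t : QbarS) ≠ 0 := by
  apply rsWp_Δ_eval_ne_zero
  · have : ((c₄ ^ 3 - c₆ ^ 2 : ℤ) : QbarS) ≠ 0 := by exact_mod_cast hΔ
    simpa using this
  · have h := map_rsDisc (Int.castRingHom QbarS) c₄ c₆ t
    simp only [eq_intCast] at h
    rw [← h]
    exact_mod_cast hD

lemma rsWp_good_zero (c₄ c₆ : ℤ) (hΔ : c₄ ^ 3 - c₆ ^ 2 ≠ 0) :
    (rsWp QbarS (c₄ : QbarS) (c₆ : QbarS)).Δ.eval (0 : QbarS) ≠ 0 := by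
  have := rsWp_good c₄ c₆ 0 hΔ (by rw [rsDisc_zero]; exact one_ne_zero)
  simpa using this

/-- **WP-D via `H26.torsionTransfer`**: `FamilyIsoStatement` from the existence of 5-torsion
lifts to the generic fibre (`hlift`) and the compatibility of the transfer map with coordinatewise
conjugation (`hconj`). -/
theorem familyIso_of_hlift [DecidableEq (RatFunc QbarS)]
    (hlift : ∀ c₄ c₆ : ℤ, c₄ ^ 3 - c₆ ^ 2 ≠ 0 →
      ∀ (h₀ : (rsWp QbarS (c₄ : QbarS) (c₆ : QbarS)).Δ.eval (0 : QbarS) ≠ 0)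
        (P : ((rsWp QbarS (c₄ : QbarS) (c₆ : QbarS)).map
          (evalRingHom (0 : QbarS))).toAffine.Point), (5 : ℕ) • P = 0 →
        ∃ S : ((rsWp QbarS (c₄ : QbarS) (c₆ : QbarS)).map
            (algebraMap QbarS[X] (RatFunc QbarS))).toAffine.Point,
          (5 : ℕ) • S = 0 ∧ Fermat.Agent.H26.specHom _ 0 h₀ S = P)
    (hconj : ∀ c₄ c₆ t : ℤ, c₄ ^ 3 - c₆ ^ 2 ≠ 0 → rsDisc c₄ c₆ t ≠ 0 →
      ∀ (h₀ : (rsWp QbarS (c₄ : QbarS) (c₆ : QbarS)).Δ.eval (0 : QbarS) ≠ 0)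
        (h₁ : (rsWp QbarS (c₄ : QbarS) (c₆ : QbarS)).Δ.eval (t : QbarS) ≠ 0)
        (σ : QbarS ≃ₐ[ℚ] QbarS)
        (P Q : ((rsWp QbarS (c₄ : QbarS) (c₆ : QbarS)).map
          (evalRingHom (0 : QbarS))).toAffine.Point), (5 : ℕ) • P = 0 → IsConjPt σ P Q →
        IsConjPt σ (Fermat.Agent.H26.torsionTransfer _ 0 (t : QbarS) h₀ h₁ 5 P)
          (Fermat.Agent.H26.torsionTransfer _ 0 (t : QbarS) h₀ h₁ 5 Q)) :
    FamilyIsoStatement := by
  apply familyIso_of_transfer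
  intro c₄ c₆ t hΔ hD
  have h₀ := rsWp_good_zero c₄ c₆ hΔ
  have h₁ := rsWp_good c₄ c₆ t hΔ hD
  have hm : ((5 : ℕ) : QbarS) ≠ 0 := by norm_num
  refine ⟨Fermat.Agent.H26.torsionTransfer _ 0 (t : QbarS) h₀ h₁ 5, ?_, ?_, ?_, ?_⟩
  · intro P Q hP hQ
    exact Fermat.Agent.H26.torsionTransfer_add _ _ _ h₀ h₁ hm (hlift c₄ c₆ hΔ h₀) P Q hP hQ
  · intro P hP
    exact Fermat.Agent.H26.torsionTransfer_torsion _ _ _ h₀ h₁ hm (hlift c₄ c₆ hΔ h₀) P hP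
  · intro P hP h
    exact Fermat.Agent.H26.eq_zero_of_torsionTransfer_eq_zero _ _ _ h₀ h₁ hm
      (hlift c₄ c₆ hΔ h₀) P hP h
  · intro σ P Q hP hPQ
    exact hconj c₄ c₆ t hΔ hD h₀ h₁ σ P Q hP hPQ

end final

end Fermat.Agent.H46
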