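import Fermat.Agent.H46.StdShort
import Fermat.Agent.H37.ThreeTorsionQ

/-!
# P-S52 glue: irreducibility at 3 from the short 3-division polynomial

If the 3-division polynomial `3 X⁴ + 6 A X² + 12 B X - A²` of the standard short model
`y² = x³ + A x + B`, `(A, B) = (-27 c₄, -54 c₆)`, of an integral Weierstrass curve `W` has no
rational root, then the mod-3 representation of `W` is irreducible.
-/

set_option autoImplicit false

namespace Fermat.Agent.H46

open WeierstrassCurve

theorem modRepIsIrreducible_three_of_short_psi3 (W : WeierstrassCurve ℤ) (hΔ : W.Δ ≠ 0)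
    (A₁ B₁ : ℤ) (hA : -27 * W.c₄ = A₁) (hB : -54 * W.c₆ = B₁)
    (hroot : ∀ X : ℚ, 3 * X ^ 4 + 6 * (A₁ : ℚ) * X ^ 2 + 12 * (B₁ : ℚ) * X - (A₁ : ℚ) ^ 2 ≠ 0) :
    W.ModRepIsIrreducible 3 := by
  by_contra hred
  obtain ⟨q, hq⟩ := Fermat.Agent.H37.exists_rat_root_psi3 W hΔ hred
  have key := psi3_stdShort (W.map (Int.castRingHom ℚ)) q
  simp only [WeierstrassCurve.map_b₂, WeierstrassCurve.map_b₄, WeierstrassCurve.map_b₆,
    WeierstrassCurve.map_b₈, WeierstrassCurve.map_c₄, WeierstrassCurve.map_c₆, eq_intCast] at key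
  rw [hq, mul_zero] at key
  apply hroot (36 * q + 3 * (W.b₂ : ℚ))
  rw [← hA, ← hB]
  push_cast
  linear_combination key

end Fermat.Agent.H46
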