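import Fermat.Agent.H95.S52FamilyRel
import Fermat.Agent.H38.RSDefs
import Mathlib.Algebra.Polynomial.Derivative
import Mathlib.Algebra.Polynomial.Eval.Defs

/-!
# P-S52: link between the two normalisations of the Rubin–Silverberg family

`Fermat.Agent.H95` (WP-E) uses `S52_D a b t`, `S52_A3 a b t = 3 A`, `S52_B27 a b t = 27 B` in terms
of `(a, b) = (a₄, a₆)`; `Fermat.Agent.H38` (WP-D) uses `rsDisc c₄ c₆ t`, `rsC4`, `rsC6` in terms of
`(c₄, c₆)`.  With `a = -27 c₄`, `b = -54 c₆` they agree.  We also record the integral polynomial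
identities (discriminant relation, Hessian identity, Bezout certificate) for the family in the
`(c₄, c₆)`-normalisation, over any commutative ring.
-/

set_option autoImplicit false

namespace Fermat.Agent.H46

open Fermat.Agent.H95 Fermat.Agent.H38 Polynomial

section link

variable {R : Type*} [CommRing R]

theorem S52_D_eq_rsDisc (c₄ c₆ t : R) :
    S52_D (-27 * c₄) (-54 * c₆) t = rsDisc c₄ c₆ t := by
  unfold S52_D rsDisc
  ring

theorem S52_A3_eq_rsC4 (c₄ c₆ t : R) :
    S52_A3 (-27 * c₄) (-54 * c₆) t = 3 * (-27 * rsC4 c₄ c₆ t) := by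
  unfold S52_A3 rsC4
  ring

theorem S52_B27_eq_rsC6 (c₄ c₆ t : R) :
    S52_B27 (-27 * c₄) (-54 * c₆) t = 27 * (-54 * rsC6 c₄ c₆ t) := by
  unfold S52_B27 rsC6
  ring

/-- The discriminant relation of the family, `(c₄, c₆)`-normalisation, multiplied by `27`. -/
theorem rs_disc_rel_27 (c₄ c₆ t : R) :
    27 * (4 * (-27 * rsC4 c₄ c₆ t) ^ 3 + 27 * (-54 * rsC6 c₄ c₆ t) ^ 2)
      = 27 * ((4 * (-27 * c₄) ^ 3 + 27 * (-54 * c₆) ^ 2) * rsDisc c₄ c₆ t ^ 5) := by
  have h := S52_hrel (-27 * c₄) (-54 * c₆) t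
  rw [S52_D_eq_rsDisc, S52_A3_eq_rsC4, S52_B27_eq_rsC6] at h
  linear_combination h

end link

section poly

variable {R : Type*} [CommRing R]

theorem derivative_S52_D (a b : R) :
    derivative (S52_D (C a) (C b) (X : R[X])) = S52_D1 (C a) (C b) X := by
  unfold S52_D S52_D1
  simp only [derivative_add, derivative_sub, derivative_mul, derivative_C,
    derivative_X, derivative_pow, derivative_ofNat, derivative_one, derivative_neg]
  simp only [Nat.cast_ofNat, Nat.add_one_sub_one]
  have h (n : ℕ) [n.AtLeastTwo] : (C (OfNat.ofNat n : R) : R[X]) = OfNat.ofNat n := map_ofNat C n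
  simp only [h]
  ring

theorem derivative_S52_D1 (a b : R) :
    derivative (S52_D1 (C a) (C b) (X : R[X])) = S52_D2 (C a) (C b) X := by
  unfold S52_D1 S52_D2
  simp only [derivative_add, derivative_sub, derivative_mul, derivative_C,
    derivative_X, derivative_pow, derivative_ofNat, derivative_neg]
  simp only [Nat.cast_ofNat, Nat.add_one_sub_one]
  have h (n : ℕ) [n.AtLeastTwo] : (C (OfNat.ofNat n : R) : R[X]) = OfNat.ofNat n := map_ofNat C n
  simp only [h]
  ring

theorem eval_rsDisc (c₄ c₆ t : R) :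
    (rsDisc (C c₄) (C c₆) (X : R[X])).eval t = rsDisc c₄ c₆ t := by
  have := map_rsDisc (evalRingHom t) (C c₄) (C c₆) (X : R[X])
  simpa using this

theorem eval_rsC4 (c₄ c₆ t : R) :
    (rsC4 (C c₄) (C c₆) (X : R[X])).eval t = rsC4 c₄ c₆ t := by
  have := map_rsC4 (evalRingHom t) (C c₄) (C c₆) (X : R[X])
  simpa using this

theorem eval_rsC6 (c₄ c₆ t : R) :
    (rsC6 (C c₄) (C c₆) (X : R[X])).eval t = rsC6 c₄ c₆ t := by
  have := map_rsC6 (evalRingHom t) (C c₄) (C c₆) (X : R[X])
  simpa using this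

end poly

end Fermat.Agent.H46
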