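import Fermat.Agent.H46.S52Cert
import Fermat.Agent.H46.S52Irr3
import Fermat.Agent.H46.S52Link
import Fermat.Agent.H95.S52FamilyFinal
import Fermat.Agent.H4.FrobRelCor
import Fermat.Agent.H40.Hasse.Main
import Fermat.Agent.H38.FiveGalois

/-!
# P-S52: final assembly, conditional only on WP-D (`FamilyIsoStatement`)

`s52_of_familyIso : FamilyIsoStatement → (statement of S52)`.

`FamilyIsoStatement` (WP-D): for integers `c₄, c₆, t` with `c₄³ ≠ c₆²` and `rsDisc c₄ c₆ t ≠ 0`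
there is an injective Galois-equivariant additive map `E[5] → E_t[5]` between the 5-torsion of
`E : y² = x³ - 27 c₄ x - 54 c₆` and of the member
`E_t : y² = x³ - 27 rsC4(c₄,c₆,t) x - 54 rsC6(c₄,c₆,t)` of the Rubin–Silverberg family.

Everything else is landed and used here: WP-A/B/C (`H4.dvd_apOfModel_sub`,
`H40.hasseRelation_reductionMod`), WP-E (`H95.S52_exists_specialization`), WP-F
(`exists_semistable_model_of_family_hessian`), the transfer to the short model (`StdShort`) and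
irreducibility at 3 (`modRepIsIrreducible_three_of_short_psi3`).
-/

set_option autoImplicit false

namespace Fermat.Agent.H46

open WeierstrassCurve WeierstrassCurve.Affine Polynomial
open Fermat.Agent.H38 Fermat.Agent.H95

/-- `ℚ̄`. -/
abbrev QbarS : Type := AlgebraicClosure ℚ

/-- The short integral curve `y² = x³ + a x + b`. -/
def shortInt (a b : ℤ) : WeierstrassCurve ℤ := ⟨0, 0, 0, a, b⟩

/-- `E[5](ℚ̄)` for an integral Weierstrass curve (same carrier as in `ModRepIsIrreducible`). -/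
noncomputable abbrev torsFive (W : WeierstrassCurve ℤ) :=
  Submodule.torsionBy ℤ ((W.map (Int.castRingHom ℚ) : Affine ℚ)⁄QbarS).Point ((5 : ℕ) : ℤ)

/-- **WP-D**: the members of the Rubin–Silverberg family have Galois-isomorphic 5-torsion. -/
def FamilyIsoStatement : Prop :=
  ∀ c₄ c₆ t : ℤ, c₄ ^ 3 - c₆ ^ 2 ≠ 0 → rsDisc c₄ c₆ t ≠ 0 →
    ∃ φ : torsFive (shortInt (-27 * c₄) (-54 * c₆)) →+
        torsFive (shortInt (-27 * rsC4 c₄ c₆ t) (-54 * rsC6 c₄ c₆ t)),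
      Function.Injective φ ∧
      ∀ (σ : QbarS ≃ₐ[ℚ] QbarS) (P : torsFive (shortInt (-27 * c₄) (-54 * c₆))),
        φ (σ • P) = σ • φ P

section main

lemma stdShort_eq_shortInt (W : WeierstrassCurve ℤ) :
    stdShort W = shortInt (-27 * W.c₄) (-54 * W.c₆) := rfl

lemma disc_short_ne_zero (W : WeierstrassCurve ℤ) (hΔ : W.Δ ≠ 0) :
    4 * (-27 * W.c₄) ^ 3 + 27 * (-54 * W.c₆) ^ 2 ≠ 0 := by
  have h := W.c_relation
  intro h0
  apply hΔ
  have : (78732 * 1728 : ℤ) * W.Δ = 0 := by linear_combination (78732 : ℤ) * h - h0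
  simpa using this

lemma c_cube_sub_sq_ne_zero (W : WeierstrassCurve ℤ) (hΔ : W.Δ ≠ 0) :
    W.c₄ ^ 3 - W.c₆ ^ 2 ≠ 0 := by
  have h := W.c_relation
  intro h0
  apply hΔ
  have : (1728 : ℤ) * W.Δ = 0 := by linear_combination h + h0
  simpa using this

lemma nontrivial_torsFive (W : WeierstrassCurve ℤ) (hΔ : W.Δ ≠ 0) : Nontrivial (torsFive W) := by
  apply Fermat.Agent.H38.nontrivial_torsionBy_five
  rw [WeierstrassCurve.map_Δ]
  exact fun h => hΔ ((map_eq_zero_iff _ (RingHom.injective_int (Int.castRingHom ℚ))).mp h)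

/-- The a_ℓ-congruence for `ℓ ≥ 7` between `W` and a curve `W'` whose standard short models have
Galois-isomorphic 5-torsion. -/
theorem five_dvd_apOfModel_sub (W W' : WeierstrassCurve ℤ)
    (hΔ : W.Δ ≠ 0) (ℓ : ℕ) (hℓ : ℓ.Prime) (h7 : 7 ≤ ℓ)
    (hg : W.IsGoodPrimeFor ℓ) (hg' : W'.IsGoodPrimeFor ℓ)
    (S S' : WeierstrassCurve ℤ) (hS : stdShort W = S) (hS' : stdShort W' = S')
    (φ : torsFive S →+ torsFive S') (hφ : Function.Injective φ)
    (hσ : ∀ (σ : QbarS ≃ₐ[ℚ] QbarS) (P : torsFive S), φ (σ • P) = σ • φ P) :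
    (5 : ℤ) ∣ W'.apOfModel ℓ - W.apOfModel ℓ := by
  subst hS hS'
  have : Fact ℓ.Prime := ⟨hℓ⟩
  have h5 : 5 ≤ ℓ := by omega
  have g₁ : (stdShort W).IsGoodPrimeFor ℓ := (isGoodPrimeFor_stdShort_iff W ℓ hℓ h5).mpr hg
  have g₂ : (stdShort W').IsGoodPrimeFor ℓ := (isGoodPrimeFor_stdShort_iff W' ℓ hℓ h5).mpr hg'
  have hΔs : (stdShort W).Δ ≠ 0 := by
    rw [stdShort_Δ]; exact mul_ne_zero (by norm_num) hΔ
  have hne : ∃ x : torsFive (stdShort W), x ≠ 0 := by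
    have := nontrivial_torsFive _ hΔs
    exact exists_ne 0
  have key := Fermat.Agent.H4.dvd_apOfModel_sub (stdShort W) (stdShort W') (ℓ := ℓ) g₁ g₂
    (Fermat.Agent.H40.hasseRelation_reductionMod _ ℓ h5 g₁)
    (Fermat.Agent.H40.hasseRelation_reductionMod _ ℓ h5 g₂)
    (n := 5) (by norm_num) (by norm_num) (by omega) φ hφ hσ hne
  rwa [apOfModel_stdShort W ℓ hℓ h5, apOfModel_stdShort W' ℓ hℓ h5] at key

/-- **S52 from WP-D.**  (The hypothesis `W.ModRepIsIrreducible 5` of the frozen statement is not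
needed.) -/
theorem s52_of_familyIso (hD : FamilyIsoStatement) (W : WeierstrassCurve ℤ) (hΔ : W.Δ ≠ 0)
    (hW : W.IsSemistableModel) :
    ∃ W' : WeierstrassCurve ℤ, W'.Δ ≠ 0 ∧ W'.IsSemistableModel ∧ W'.ModRepIsIrreducible 3 ∧
      ∀ ℓ : ℕ, ℓ.Prime → W.IsGoodPrimeFor ℓ → W'.IsGoodPrimeFor ℓ → ℓ ≠ 5 →
        (5 : ℤ) ∣ (W'.apOfModel ℓ - W.apOfModel ℓ) := by
  have hΔ₀ : 4 * (-27 * W.c₄) ^ 3 + 27 * (-54 * W.c₆) ^ 2 ≠ 0 := disc_short_ne_zero W hΔ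
  -- the constant of the Bezout certificate
  obtain ⟨c, hc⟩ : ∃ c : ℤ, c = 1280000 * (4 * (-27 * W.c₄) ^ 3 + 27 * (-54 * W.c₆) ^ 2) ^ 4 :=
    ⟨_, rfl⟩
  have hc0 : c ≠ 0 := by
    rw [hc]; exact mul_ne_zero (by norm_num) (pow_ne_zero _ hΔ₀)
  -- the family as integral polynomials
  have eCa : (C (-27 * W.c₄) : ℤ[X]) = -27 * C W.c₄ := by
    simp only [map_mul, map_neg, map_ofNat]
  have eCb : (C (-54 * W.c₆) : ℤ[X]) = -54 * C W.c₆ := by
    simp only [map_mul, map_neg, map_ofNat]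
  have e𝒟 : S52_D (C (-27 * W.c₄)) (C (-54 * W.c₆)) (X : ℤ[X]) = rsDisc (C W.c₄) (C W.c₆) X := by
    rw [eCa, eCb, S52_D_eq_rsDisc]
  have e𝒜 : S52_A3 (C (-27 * W.c₄)) (C (-54 * W.c₆)) (X : ℤ[X])
      = 3 * (-27 * rsC4 (C W.c₄) (C W.c₆) X) := by
    rw [eCa, eCb, S52_A3_eq_rsC4]
  have h𝒟' : derivative (rsDisc (C W.c₄) (C W.c₆) (X : ℤ[X]))
      = S52_D1 (C (-27 * W.c₄)) (C (-54 * W.c₆)) X := by
    rw [← e𝒟, derivative_S52_D]
  have h𝒟'' : derivative (derivative (rsDisc (C W.c₄) (C W.c₆) (X : ℤ[X])))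
      = S52_D2 (C (-27 * W.c₄)) (C (-54 * W.c₆)) X := by
    rw [h𝒟', derivative_S52_D1]
  have hdisc : 4 * (-27 * rsC4 (C W.c₄) (C W.c₆) (X : ℤ[X])) ^ 3
        + 27 * (-54 * rsC6 (C W.c₄) (C W.c₆) X) ^ 2
      = C (4 * (-27 * W.c₄) ^ 3 + 27 * (-54 * W.c₆) ^ 2) * rsDisc (C W.c₄) (C W.c₆) X ^ 5 := by
    have h := rs_disc_rel_27 (C W.c₄) (C W.c₆) (X : ℤ[X])
    have h27 : (27 : ℤ[X]) ≠ 0 := by
      have : (27 : ℤ[X]) = C 27 := (map_ofNat C 27).symm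
      rw [this, Ne, C_eq_zero]; norm_num
    have := mul_left_cancel₀ h27 h
    rw [this]
    simp only [map_add, map_mul, map_pow, map_neg, map_ofNat]
  have hH : C (528 : ℤ) * (-27 * rsC4 (C W.c₄) (C W.c₆) (X : ℤ[X]))
      = 12 * rsDisc (C W.c₄) (C W.c₆) X * derivative (derivative (rsDisc (C W.c₄) (C W.c₆) X))
        - 11 * derivative (rsDisc (C W.c₄) (C W.c₆) X) ^ 2 := by
    have h := S52_hessian (C (-27 * W.c₄)) (C (-54 * W.c₆)) (X : ℤ[X])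
    rw [e𝒟, e𝒜] at h
    rw [h𝒟'', h𝒟', ← h]
    have : (C (528 : ℤ) : ℤ[X]) = 528 := map_ofNat C 528
    rw [this]; ring
  have hbez : S52_certU (C (-27 * W.c₄)) (C (-54 * W.c₆)) (X : ℤ[X])
        * rsDisc (C W.c₄) (C W.c₆) X
      + S52_certV (C (-27 * W.c₄)) (C (-54 * W.c₆)) (X : ℤ[X])
        * derivative (rsDisc (C W.c₄) (C W.c₆) X) = C c := by
    have h := S52_bezout (C (-27 * W.c₄)) (C (-54 * W.c₆)) (X : ℤ[X])
    rw [e𝒟] at h
    rw [h𝒟', h, hc]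
    simp only [map_add, map_mul, map_pow, map_neg, map_ofNat]
  -- WP-E: choice of the parameter
  have hΔ₀ℚ : 4 * ((-27 * W.c₄ : ℤ) : ℚ) ^ 3 + 27 * ((-54 * W.c₆ : ℤ) : ℚ) ^ 2 ≠ 0 := by
    intro h
    apply hΔ₀
    have : ((4 * (-27 * W.c₄) ^ 3 + 27 * (-54 * W.c₆) ^ 2 : ℤ) : ℚ) = 0 := by
      push_cast at h ⊢; exact h
    exact_mod_cast this
  have hM0 : (6 : ℤ) ^ 7 * W.Δ * (11 * c) ≠ 0 :=
    mul_ne_zero (mul_ne_zero (by norm_num) hΔ) (mul_ne_zero (by norm_num) hc0)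
  obtain ⟨n, -, hMn, -, hroot⟩ := S52_exists_specialization ((-27 * W.c₄ : ℤ) : ℚ)
    ((-54 * W.c₆ : ℤ) : ℚ) hΔ₀ℚ ((6 : ℤ) ^ 7 * W.Δ * (11 * c)).natAbs
    (Int.natAbs_pos.mpr hM0) 0
  have ht : (6 : ℤ) ^ 7 * W.Δ * (11 * c) ∣ (n : ℤ) :=
    Int.natAbs_dvd.mp (Int.natCast_dvd_natCast.mpr hMn)
  -- WP-F: the integral semistable model
  obtain ⟨W', -, -, -, hc₄', hc₆', -, hDt, hΔ', hss', -, hap⟩ :=
    exists_semistable_model_of_family_hessian W hΔ hW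
      (-27 * rsC4 (C W.c₄) (C W.c₆) X) (-54 * rsC6 (C W.c₄) (C W.c₆) X)
      (rsDisc (C W.c₄) (C W.c₆) X) _ _ c
      (by rw [eval_mul, eval_rsC4, rsC4_zero]; simp)
      (by rw [eval_mul, eval_rsC6, rsC6_zero]; simp)
      (by rw [eval_rsDisc, rsDisc_zero])
      hdisc hH hbez (n : ℤ) ht
  have hA' : -27 * W'.c₄ = -27 * rsC4 W.c₄ W.c₆ (n : ℤ) := by
    rw [hc₄', eval_mul, eval_rsC4]; simp
  have hB' : -54 * W'.c₆ = -54 * rsC6 W.c₄ W.c₆ (n : ℤ) := by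
    rw [hc₆', eval_mul, eval_rsC6]; simp
  have hDt' : rsDisc W.c₄ W.c₆ (n : ℤ) ≠ 0 := by
    rwa [eval_rsDisc] at hDt
  refine ⟨W', hΔ', hss', ?_, ?_⟩
  · -- irreducibility at 3
    apply modRepIsIrreducible_three_of_short_psi3 W' hΔ' _ _ hA' hB'
    intro y
    have h := hroot y
    have eA : S52_A ((-27 * W.c₄ : ℤ) : ℚ) ((-54 * W.c₆ : ℤ) : ℚ) (n : ℚ)
        = ((-27 * rsC4 W.c₄ W.c₆ (n : ℤ) : ℤ) : ℚ) := by
      have := map_rsC4 (Int.castRingHom ℚ) W.c₄ W.c₆ (n : ℤ)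
      simp only [eq_intCast, Int.cast_natCast] at this
      unfold S52_A
      push_cast
      rw [S52_A3_eq_rsC4, this]
      ring
    have eB : S52_B ((-27 * W.c₄ : ℤ) : ℚ) ((-54 * W.c₆ : ℤ) : ℚ) (n : ℚ)
        = ((-54 * rsC6 W.c₄ W.c₆ (n : ℤ) : ℤ) : ℚ) := by
      have := map_rsC6 (Int.castRingHom ℚ) W.c₄ W.c₆ (n : ℤ)
      simp only [eq_intCast, Int.cast_natCast] at this
      unfold S52_B
      push_cast
      rw [S52_B27_eq_rsC6, this]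
      ring
    rwa [eA, eB] at h
  · -- the congruences
    intro ℓ hℓ hg hg' hℓ5
    by_cases h6 : (ℓ : ℤ) ∣ 6 * W.Δ
    · rw [hap ℓ h6, sub_self]
      exact dvd_zero _
    · have h2 : ℓ ≠ 2 := by
        rintro rfl
        exact h6 (Dvd.intro (3 * W.Δ) (by push_cast; ring))
      have h3 : ℓ ≠ 3 := by
        rintro rfl
        exact h6 (Dvd.intro (2 * W.Δ) (by push_cast; ring))
      have h7 : 7 ≤ ℓ := by
        have h2' := hℓ.two_le
        by_contra hlt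
        have : ℓ = 4 ∨ ℓ = 6 := by omega
        rcases this with rfl | rfl
        · exact absurd hℓ (by norm_num)
        · exact absurd hℓ (by norm_num)
      obtain ⟨φ, hφ, hσ⟩ := hD W.c₄ W.c₆ (n : ℤ) (c_cube_sub_sq_ne_zero W hΔ) hDt'
      have e' : stdShort W' = shortInt (-27 * rsC4 W.c₄ W.c₆ (n : ℤ))
          (-54 * rsC6 W.c₄ W.c₆ (n : ℤ)) := by
        rw [stdShort_eq_shortInt, hA', hB']
      exact five_dvd_apOfModel_sub W W' hΔ ℓ hℓ h7 hg hg' _ _ (stdShort_eq_shortInt W) e'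
        φ hφ hσ

end main

end Fermat.Agent.H46
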