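import Fermat.Agent.H46.S52F

/-!
# P-S52: coprimality certificates from the Hessian identity

For the Rubin–Silverberg family, `A = Hessian(D) / 5808`, i.e. `528 A = 12 D D'' - 11 D'²` in the
inhomogeneous variable `t`.  Hence `IsCoprime A D` follows from separability of `D`, over a field
and integrally at a value `t₁`.
-/

set_option autoImplicit false

namespace Fermat.Agent.H46

open Polynomial

/-- Over a field: `D` separable and `528 A = 12 D D'' - 11 D'²` imply `IsCoprime A D`. -/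
theorem isCoprime_of_hessian {K : Type*} [Field K] (h528 : (528 : K) ≠ 0) (A D : K[X])
    (hH : C (528 : K) * A = 12 * D * derivative (derivative D) - 11 * derivative D ^ 2)
    (hsep : D.Separable) : IsCoprime A D := by
  have h11 : (11 : K) ≠ 0 := by
    intro h
    apply h528
    have : (528 : K) = 11 * 48 := by norm_num
    rw [this, h, zero_mul]
  have h1 : IsCoprime D (derivative D ^ 2) := IsCoprime.pow_right hsep
  have h2 : IsCoprime D (C (-11 : K) * derivative D ^ 2) := by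
    have hu : IsUnit (C (-11 : K)) := Polynomial.isUnit_C.mpr (IsUnit.mk0 _ (neg_ne_zero.mpr h11))
    exact (isCoprime_mul_unit_left_right hu D _).mpr h1
  have h3 : IsCoprime D (C (528 : K) * A) := by
    have : C (528 : K) * A = C (-11 : K) * derivative D ^ 2 + D * (12 * derivative (derivative D)) := by
      rw [hH]; simp only [map_neg, map_ofNat]; ring
    rw [this]
    exact h2.add_mul_left_right _
  have hu : IsUnit (C (528 : K)) := Polynomial.isUnit_C.mpr (IsUnit.mk0 _ h528)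
  exact ((isCoprime_mul_unit_left_right hu D A).mp h3).symm

/-- Integral version at a value. -/
theorem isCoprime_int_of_hessian (A₁ D₁ D₁' D₁'' : ℤ)
    (hH : 528 * A₁ = 12 * D₁ * D₁'' - 11 * D₁' ^ 2)
    (hD : IsCoprime D₁ D₁') (h11 : IsCoprime D₁ 11) : IsCoprime A₁ D₁ := by
  have h1 : IsCoprime D₁ (D₁' ^ 2) := IsCoprime.pow_right hD
  have h2 : IsCoprime D₁ (-11 * D₁' ^ 2) := (h11.neg_right).mul_right h1
  have h3 : IsCoprime D₁ (528 * A₁) := by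
    have : 528 * A₁ = -11 * D₁' ^ 2 + D₁ * (12 * D₁'') := by rw [hH]; ring
    rw [this]
    exact h2.add_mul_left_right _
  exact (IsCoprime.of_mul_right_right h3).symm

/-- **WP-F, family form with the Hessian identity**: the Bezout certificate is only needed for
`(𝒟, 𝒟')`. -/
theorem exists_semistable_model_of_family_hessian (W : WeierstrassCurve ℤ) (hΔ : W.Δ ≠ 0)
    (hW : W.IsSemistableModel) (𝒜 ℬ 𝒟 𝒰 𝒱 : ℤ[X]) (c : ℤ)
    (h𝒜0 : 𝒜.eval 0 = -27 * W.c₄) (hℬ0 : ℬ.eval 0 = -54 * W.c₆) (h𝒟0 : 𝒟.eval 0 = 1)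
    (hdisc : 4 * 𝒜 ^ 3 + 27 * ℬ ^ 2 =
      C (4 * (-27 * W.c₄) ^ 3 + 27 * (-54 * W.c₆) ^ 2) * 𝒟 ^ 5)
    (hH : C (528 : ℤ) * 𝒜 = 12 * 𝒟 * derivative (derivative 𝒟) - 11 * derivative 𝒟 ^ 2)
    (hbez : 𝒰 * 𝒟 + 𝒱 * derivative 𝒟 = C c) (t : ℤ)
    (ht : (6 : ℤ) ^ 7 * W.Δ * (11 * c) ∣ t) :
    ∃ W' : WeierstrassCurve ℤ,
      W'.a₁ = W.a₁ ∧ W'.a₂ = W.a₂ ∧ W'.a₃ = W.a₃ ∧
      -27 * W'.c₄ = 𝒜.eval t ∧ -54 * W'.c₆ = ℬ.eval t ∧
      W'.Δ = W.Δ * 𝒟.eval t ^ 5 ∧ 𝒟.eval t ≠ 0 ∧ W'.Δ ≠ 0 ∧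
      W'.IsSemistableModel ∧
      (∀ p : ℕ, (p : ℤ) ∣ 6 * W.Δ → W'.reductionMod p = W.reductionMod p) ∧
      (∀ p : ℕ, (p : ℤ) ∣ 6 * W.Δ → W'.apOfModel p = W.apOfModel p) := by
  have ht1 : (6 : ℤ) ^ 7 * W.Δ ∣ t := (Dvd.intro _ rfl).trans ht
  have htc : c ∣ t := (Dvd.intro_left ((6 : ℤ) ^ 7 * W.Δ * 11) (by ring)).trans ht
  have ht11 : (11 : ℤ) ∣ t := (Dvd.intro_left ((6 : ℤ) ^ 7 * W.Δ * c) (by ring)).trans ht
  have ht6 : (6 : ℤ) ∣ t := (Dvd.intro (6 ^ 6 * W.Δ * (11 * c)) (by ring)).trans ht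
  have hA : (6 : ℤ) ^ 7 * W.Δ ∣ 𝒜.eval t + 27 * W.c₄ := by
    have := dvd_eval_sub_eval_zero 𝒜 ht1
    rw [h𝒜0] at this
    simpa [sub_eq_add_neg] using this
  have hB : (6 : ℤ) ^ 7 * W.Δ ∣ ℬ.eval t + 54 * W.c₆ := by
    have := dvd_eval_sub_eval_zero ℬ ht1
    rw [hℬ0] at this
    simpa [sub_eq_add_neg] using this
  have hd : 4 * 𝒜.eval t ^ 3 + 27 * ℬ.eval t ^ 2 =
      (4 * (-27 * W.c₄) ^ 3 + 27 * (-54 * W.c₆) ^ 2) * 𝒟.eval t ^ 5 := by
    have := congrArg (Polynomial.eval t) hdisc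
    simpa using this
  -- `𝒟(t) ≡ 1` modulo `c`, `11`, `6`
  obtain ⟨e, he⟩ := dvd_eval_sub_eval_zero 𝒟 htc
  obtain ⟨e', he'⟩ := dvd_eval_sub_eval_zero 𝒟 ht11
  rw [h𝒟0] at he he'
  have hb : 𝒰.eval t * 𝒟.eval t + 𝒱.eval t * (derivative 𝒟).eval t = c := by
    have := congrArg (Polynomial.eval t) hbez
    simpa using this
  have hDD' : IsCoprime (𝒟.eval t) ((derivative 𝒟).eval t) := by
    refine ⟨1 - e * 𝒰.eval t, -e * 𝒱.eval t, ?_⟩
    linear_combination he - e * hb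
  have hD11 : IsCoprime (𝒟.eval t) 11 := ⟨1, -e', by linear_combination he'⟩
  have hHt : 528 * 𝒜.eval t =
      12 * 𝒟.eval t * (derivative (derivative 𝒟)).eval t - 11 * (derivative 𝒟).eval t ^ 2 := by
    have := congrArg (Polynomial.eval t) hH
    simpa using this
  have hcop := isCoprime_int_of_hessian _ _ _ _ hHt hDD' hD11
  have hD : 𝒟.eval t ≠ 0 := by
    intro h0
    have := dvd_eval_sub_eval_zero 𝒟 ht6
    rw [h0, h𝒟0] at this
    norm_num at this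
  obtain ⟨W', h1, h2, h3, h4, h5, h6, h7, h8, h9⟩ :=
    exists_semistable_model W hW _ _ _ hA hB hd hcop
  exact ⟨W', h1, h2, h3, h4, h5, h6, hD, by rw [h6]; exact mul_ne_zero hΔ (pow_ne_zero _ hD),
    h7, h8, h9⟩

end Fermat.Agent.H46
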