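import Fermat.Agent.H46.Transfer
import Fermat.Prelude.Def_FLTPrelim_Modularity

/-!
# Transfer to the standard short Weierstrass model `y² = x³ - 27 c₄ x - 54 c₆`

For a Weierstrass curve `W` over a field `F` and an extension `L` with `6 ≠ 0`, the substitution
`X = 36 x + 3 b₂`, `Y = 108 (2 y + a₁ x + a₃)` is an additive equivalence
`W(L) ≃+ (stdShort W)(L)`, natural in `L` (hence Galois- and Frobenius-equivariant).
Consequences: equality of point counts over finite fields of characteristic `≥ 5`, and
`apOfModel` of an integral curve equals `apOfModel` of its standard short model for `ℓ ≥ 5`.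
-/

set_option autoImplicit false

namespace Fermat.Agent.H46

open WeierstrassCurve WeierstrassCurve.Affine

/-- The standard short model `y² = x³ - 27 c₄ x - 54 c₆`. -/
def stdShort {R : Type*} [CommRing R] (W : WeierstrassCurve R) : WeierstrassCurve R :=
  ⟨0, 0, 0, -27 * W.c₄, -54 * W.c₆⟩

section ring

variable {R : Type*} [CommRing R] (W : WeierstrassCurve R)

@[simp] lemma stdShort_a₁ : (stdShort W).a₁ = 0 := rfl
@[simp] lemma stdShort_a₂ : (stdShort W).a₂ = 0 := rfl
@[simp] lemma stdShort_a₃ : (stdShort W).a₃ = 0 := rfl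
@[simp] lemma stdShort_a₄ : (stdShort W).a₄ = -27 * W.c₄ := rfl
@[simp] lemma stdShort_a₆ : (stdShort W).a₆ = -54 * W.c₆ := rfl

lemma stdShort_map {S : Type*} [CommRing S] (f : R →+* S) :
    (stdShort W).map f = stdShort (W.map f) := by
  ext <;> simp [stdShort, WeierstrassCurve.map_c₄, WeierstrassCurve.map_c₆, map_ofNat]

lemma stdShort_b₂ : (stdShort W).b₂ = 0 := by simp [WeierstrassCurve.b₂]
lemma stdShort_b₄ : (stdShort W).b₄ = -54 * W.c₄ := by simp [WeierstrassCurve.b₄]; ring
lemma stdShort_b₆ : (stdShort W).b₆ = -216 * W.c₆ := by simp [WeierstrassCurve.b₆]; ring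

lemma stdShort_c₄ : (stdShort W).c₄ = 6 ^ 4 * W.c₄ := by
  simp only [WeierstrassCurve.c₄, stdShort_b₂, stdShort_b₄]; ring

lemma stdShort_c₆ : (stdShort W).c₆ = 6 ^ 6 * W.c₆ := by
  simp only [WeierstrassCurve.c₆, stdShort_b₂, stdShort_b₄, stdShort_b₆]; ring

lemma stdShort_Δ : (stdShort W).Δ = 6 ^ 12 * W.Δ := by
  have h := W.c_relation
  have h1 : (stdShort W).Δ = -16 * (4 * (-27 * W.c₄) ^ 3 + 27 * (-54 * W.c₆) ^ 2) := by
    simp only [WeierstrassCurve.Δ, WeierstrassCurve.b₈, WeierstrassCurve.b₂, WeierstrassCurve.b₄,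
      WeierstrassCurve.b₆, stdShort_a₁, stdShort_a₂, stdShort_a₃, stdShort_a₄, stdShort_a₆]
    ring
  rw [h1]
  linear_combination (-1259712 : R) * h

/-- The 3-division polynomial of the standard short model, evaluated at `36 q + 3 b₂`, is
`6⁸` times the 3-division polynomial of `W` at `q`. -/
lemma psi3_stdShort (q : R) :
    3 * (36 * q + 3 * W.b₂) ^ 4 + 6 * (-27 * W.c₄) * (36 * q + 3 * W.b₂) ^ 2
        + 12 * (-54 * W.c₆) * (36 * q + 3 * W.b₂) - (-27 * W.c₄) ^ 2
      = 6 ^ 8 * (3 * q ^ 4 + W.b₂ * q ^ 3 + 3 * W.b₄ * q ^ 2 + 3 * W.b₆ * q + W.b₈) := by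
  simp only [WeierstrassCurve.c₄, WeierstrassCurve.c₆, WeierstrassCurve.b₈, WeierstrassCurve.b₂,
    WeierstrassCurve.b₄, WeierstrassCurve.b₆]
  ring

end ring

section field

variable {F : Type*} [Field F] {L : Type*} [Field L] [Algebra F L]

/-- `stdShort`, typed as an affine curve. -/
abbrev stdShortA (W : WeierstrassCurve.Affine F) : WeierstrassCurve.Affine F := stdShort W

/-- The change of variables (over `L`) taking `stdShort W` back to `W`. -/
def stdVC (W : WeierstrassCurve.Affine F) (h6 : (6 : L) ≠ 0) : VariableChange L :=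
  ⟨Units.mk0 6 h6, 3 * algebraMap F L W.b₂, 3 * algebraMap F L W.a₁, 108 * algebraMap F L W.a₃⟩

lemma stdVC_smul (W : WeierstrassCurve.Affine F) (h6 : (6 : L) ≠ 0) :
    stdVC W h6 • ((stdShortA W).baseChange L) = W.baseChange L := by
  ext
  · simp only [variableChange_a₁, stdVC, stdShortA, stdShort, WeierstrassCurve.Affine.baseChange_a₁,
      Units.val_inv_eq_inv_val, Units.val_mk0, map_zero]
    field_simp
    ring
  · simp only [variableChange_a₂, stdVC, stdShortA, stdShort, WeierstrassCurve.Affine.baseChange_a₁,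
      WeierstrassCurve.Affine.baseChange_a₂,
      Units.val_inv_eq_inv_val, Units.val_mk0, map_zero, WeierstrassCurve.b₂, map_add, map_mul,
      map_pow, map_ofNat]
    field_simp
    ring
  · simp only [variableChange_a₃, stdVC, stdShortA, stdShort, WeierstrassCurve.Affine.baseChange_a₁,
      WeierstrassCurve.Affine.baseChange_a₃,
      Units.val_inv_eq_inv_val, Units.val_mk0, map_zero, WeierstrassCurve.b₂, map_add, map_mul,
      map_pow, map_ofNat]
    field_simp
    ring
  · simp only [variableChange_a₄, stdVC, stdShortA, stdShort, WeierstrassCurve.Affine.baseChange_a₁,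
      WeierstrassCurve.Affine.baseChange_a₂, WeierstrassCurve.Affine.baseChange_a₃,
      WeierstrassCurve.Affine.baseChange_a₄,
      Units.val_inv_eq_inv_val, Units.val_mk0, map_zero, WeierstrassCurve.b₂, WeierstrassCurve.b₄,
      WeierstrassCurve.c₄, map_add, map_mul, map_pow, map_ofNat, map_neg, map_sub]
    field_simp
    ring
  · simp only [variableChange_a₆, stdVC, stdShortA, stdShort, WeierstrassCurve.Affine.baseChange_a₁,
      WeierstrassCurve.Affine.baseChange_a₂, WeierstrassCurve.Affine.baseChange_a₃,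
      WeierstrassCurve.Affine.baseChange_a₄, WeierstrassCurve.Affine.baseChange_a₆,
      Units.val_inv_eq_inv_val, Units.val_mk0, map_zero, WeierstrassCurve.b₂, WeierstrassCurve.b₄,
      WeierstrassCurve.b₆, WeierstrassCurve.c₄, WeierstrassCurve.c₆, map_add, map_mul, map_pow,
      map_ofNat, map_neg, map_sub]
    field_simp
    ring

lemma stdVC_vcX (W : WeierstrassCurve.Affine F) (h6 : (6 : L) ≠ 0) (x : L) :
    vcX (stdVC W h6) x = 36 * x + 3 * algebraMap F L W.b₂ := by
  simp only [vcX, stdVC, Units.val_mk0]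
  ring

lemma stdVC_vcY (W : WeierstrassCurve.Affine F) (h6 : (6 : L) ≠ 0) (x y : L) :
    vcY (stdVC W h6) x y
      = 108 * (2 * y + algebraMap F L W.a₁ * x + algebraMap F L W.a₃) := by
  simp only [vcY, stdVC, Units.val_mk0]
  ring

variable [DecidableEq L]

/-- The transfer to the standard short model, as an additive equivalence on points. -/
noncomputable def toStdShort (W : WeierstrassCurve.Affine F) (h6 : (6 : L) ≠ 0) :
    (W.baseChange L).Point ≃+ ((stdShortA W).baseChange L).Point :=
  (pointCongr (stdVC_smul (L := L) W h6).symm).trans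
    (vcPointEquiv (stdVC W h6) ((stdShortA W).baseChange L))

@[simp] lemma toStdShort_zero (W : WeierstrassCurve.Affine F) (h6 : (6 : L) ≠ 0) :
    toStdShort (L := L) W h6 0 = 0 := map_zero _

theorem toStdShort_some (W : WeierstrassCurve.Affine F) (h6 : (6 : L) ≠ 0) {x y : L}
    (h : (W.baseChange L).Nonsingular x y) :
    ∃ h' : ((stdShortA W).baseChange L).Nonsingular (36 * x + 3 * algebraMap F L W.b₂)
        (108 * (2 * y + algebraMap F L W.a₁ * x + algebraMap F L W.a₃)),
      toStdShort W h6 (Point.some x y h) =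
        Point.some (36 * x + 3 * algebraMap F L W.b₂)
          (108 * (2 * y + algebraMap F L W.a₁ * x + algebraMap F L W.a₃)) h' := by
  have key : toStdShort W h6 (Point.some x y h) =
      Point.some (vcX (stdVC W h6) x) (vcY (stdVC W h6) x y)
        ((vc_nonsingular (stdVC W h6) ((stdShortA W).baseChange L) x y).mp
          ((stdVC_smul (L := L) W h6).symm ▸ h)) := by
    rw [toStdShort, AddEquiv.trans_apply, pointCongr_some, vcPointEquiv_some]
  have hns : ((stdShortA W).baseChange L).Nonsingular (36 * x + 3 * algebraMap F L W.b₂)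
      (108 * (2 * y + algebraMap F L W.a₁ * x + algebraMap F L W.a₃)) := by
    have := (vc_nonsingular (stdVC W h6) ((stdShortA W).baseChange L) x y).mp
      ((stdVC_smul (L := L) W h6).symm ▸ h)
    rwa [stdVC_vcX, stdVC_vcY] at this
  refine ⟨hns, ?_⟩
  rw [key]
  exact point_some_congr _ _ (stdVC_vcX W h6 x) (stdVC_vcY W h6 x y)

/-- Naturality of the transfer in the extension field. -/
theorem toStdShort_map {L' : Type*} [Field L'] [Algebra F L'] [DecidableEq L']
    (W : WeierstrassCurve.Affine F) (h6 : (6 : L) ≠ 0) (h6' : (6 : L') ≠ 0) (f : L →ₐ[F] L')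
    (P : (W.baseChange L).Point) :
    toStdShort W h6' (Point.map (W' := W) f P) =
      Point.map (W' := stdShortA W) f (toStdShort W h6 P) := by
  rcases P with _ | ⟨x, y, h⟩
  · change toStdShort W h6' 0 = Point.map (W' := stdShortA W) f (toStdShort W h6 0)
    rw [toStdShort_zero, toStdShort_zero]
    rfl
  · obtain ⟨h₁, e₁⟩ := toStdShort_some W h6 h
    rw [Point.map_some, e₁, Point.map_some]
    obtain ⟨h₂, e₂⟩ := toStdShort_some W h6'
      ((W.baseChange_nonsingular f.injective ..).mpr h)
    rw [e₂]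
    apply point_some_congr
    · simp only [map_add, map_mul, map_ofNat, AlgHom.commutes]
    · simp only [map_add, map_mul, map_ofNat, AlgHom.commutes]

/-- Galois equivariance of the transfer (prelude action). -/
theorem toStdShort_smul (W : WeierstrassCurve.Affine F) (h6 : (6 : L) ≠ 0)
    (σ : L ≃ₐ[F] L) (P : (W.baseChange L).Point) :
    toStdShort W h6 (σ • P) = σ • toStdShort W h6 P :=
  toStdShort_map W h6 h6 σ.toAlgHom P

end field

section count

variable {F : Type*} [Field F]

/-- Over the base field itself: `W(F) ≃ (stdShort W)(F)` when `6 ≠ 0`. -/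
noncomputable def toStdShortBase (W : WeierstrassCurve F) (h6 : (6 : F) ≠ 0) :
    W.toAffine.Point ≃ (stdShort W).toAffine.Point := by
  classical
  have e₁ : W.toAffine = (W.toAffine).baseChange F := by
    change W = W.map (algebraMap F F)
    rw [Algebra.algebraMap_self, WeierstrassCurve.map_id]
  have e₂ : (stdShortA W.toAffine).baseChange F = (stdShort W).toAffine := by
    change (stdShort W).map (algebraMap F F) = stdShort W
    rw [Algebra.algebraMap_self, WeierstrassCurve.map_id]
  exact ((pointCongr e₁).trans ((toStdShort (L := F) W.toAffine h6).trans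
    (pointCongr e₂))).toEquiv

theorem card_stdShort (W : WeierstrassCurve F) (h6 : (6 : F) ≠ 0) :
    (stdShort W).card = W.card :=
  (Nat.card_congr (toStdShortBase W h6)).symm

theorem traceOfFrobenius_stdShort (W : WeierstrassCurve F) (h6 : (6 : F) ≠ 0) :
    (stdShort W).traceOfFrobenius = W.traceOfFrobenius := by
  unfold WeierstrassCurve.traceOfFrobenius
  rw [card_stdShort W h6]

end count

section integral

lemma six_ne_zero_zmod (ℓ : ℕ) (hℓ : ℓ.Prime) (h5 : 5 ≤ ℓ) : (6 : ZMod ℓ) ≠ 0 := by
  have h : ((6 : ℕ) : ZMod ℓ) ≠ 0 := by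
    rw [Ne, ZMod.natCast_eq_zero_iff]
    intro hd
    have h6 : ℓ ∣ 2 * 3 := by simpa using hd
    rcases (Nat.Prime.dvd_mul hℓ).mp h6 with h2 | h3
    · have := Nat.le_of_dvd (by norm_num) h2; omega
    · have := Nat.le_of_dvd (by norm_num) h3; omega
  exact_mod_cast h

/-- The standard short model has the same reduction data as `W` at primes `ℓ ≥ 5`:
its reduction is the standard short model of the reduction. -/
theorem reductionMod_stdShort (W : WeierstrassCurve ℤ) (ℓ : ℕ) :
    (stdShort W).reductionMod ℓ = stdShort (W.reductionMod ℓ) :=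
  stdShort_map W _

/-- `a_ℓ` of the standard short model `y² = x³ - 27 c₄ x - 54 c₆` equals `a_ℓ(W)` for `ℓ ≥ 5`. -/
theorem apOfModel_stdShort (W : WeierstrassCurve ℤ) (ℓ : ℕ) (hℓ : ℓ.Prime) (h5 : 5 ≤ ℓ) :
    (stdShort W).apOfModel ℓ = W.apOfModel ℓ := by
  have : Fact ℓ.Prime := ⟨hℓ⟩
  unfold WeierstrassCurve.apOfModel
  rw [reductionMod_stdShort]
  exact traceOfFrobenius_stdShort (F := ZMod ℓ) (W.reductionMod ℓ) (six_ne_zero_zmod ℓ hℓ h5)

/-- Good primes `ℓ ≥ 5` are the same for `W` and its standard short model. -/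
theorem isGoodPrimeFor_stdShort_iff (W : WeierstrassCurve ℤ) (ℓ : ℕ) (hℓ : ℓ.Prime)
    (h5 : 5 ≤ ℓ) : (stdShort W).IsGoodPrimeFor ℓ ↔ W.IsGoodPrimeFor ℓ := by
  unfold WeierstrassCurve.IsGoodPrimeFor
  rw [stdShort_Δ]
  have hp : Prime (ℓ : ℤ) := Nat.prime_iff_prime_int.mp hℓ
  constructor
  · intro h hd
    exact h (Dvd.dvd.mul_left hd _)
  · intro h hd
    rcases hp.dvd_or_dvd hd with h6 | hΔ
    · have h6' : (ℓ : ℤ) ∣ 6 := hp.dvd_of_dvd_pow h6
      have : ℓ ∣ 6 := by exact_mod_cast h6'
      have := Nat.le_of_dvd (by norm_num) this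
      have h23 : ℓ = 5 ∨ ℓ = 6 := by omega
      rcases h23 with rfl | rfl
      · omega
      · exact absurd hℓ (by decide)
    · exact h hΔ

end integral

end Fermat.Agent.H46
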